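import Fermat.Agent.RelJac.Bridge.Sig

/-!
Sections of the inverse image of a quasi-coherent module between affine schemes.
-/

noncomputable section

universe u

open CategoryTheory AlgebraicGeometry TopologicalSpace
open scoped TensorProduct ChangeOfRings

namespace Fermat.Agent.RelJac.Sheaf

variable {A B : CommRingCat.{u}}

/-- Pushforward along `Spec φ` on global sections is restriction of scalars. -/
def pushGammaIso (φ : A ⟶ B) :
    Scheme.Modules.pushforward (Spec.map φ) ⋙ moduleSpecΓFunctor (R := A) ≅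
      moduleSpecΓFunctor (R := B) ⋙ ModuleCat.restrictScalars φ.hom :=
  Functor.isoWhiskerRight (pushforwardCompModulesSpecToSheafIso φ)
    (TopCat.Sheaf.forget _ _ ⋙ (evaluation _ _).obj (.op ⊤))

/-- The composite of the two adjunctions through the scheme side. -/
def schemeAdj (φ : A ⟶ B) :
    tilde.functor A ⋙ Scheme.Modules.pullback (Spec.map φ) ⊣
      moduleSpecΓFunctor (R := B) ⋙ ModuleCat.restrictScalars φ.hom :=
  ((tilde.adjunction (R := A)).comp
    (Scheme.Modules.pullbackPushforwardAdjunction (Spec.map φ))).ofNatIsoRight (pushGammaIso φ)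

/-- The composite of the two adjunctions through the algebra side. -/
def algebraAdj (φ : A ⟶ B) :
    ModuleCat.extendScalars φ.hom ⋙ tilde.functor B ⊣
      moduleSpecΓFunctor (R := B) ⋙ ModuleCat.restrictScalars φ.hom :=
  (ModuleCat.extendRestrictScalarsAdj φ.hom).comp (tilde.adjunction (R := B))

/-- Base change for the inverse image of `tilde N` along `Spec φ`. -/
theorem semiBC_tilde (φ : A ⟶ B) (N : ModuleCat.{u} A) :
    SemiBC φ.hom (sig (Spec.map φ) (tilde N) (le_refl (Spec.map φ ⁻¹ᵁ ⊤)) :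
      Γ(tilde N, ⊤) →+ Γ((Scheme.Modules.pullback (Spec.map φ)).obj (tilde N), ⊤)) := by
  let θ : ModuleCat.extendScalars φ.hom ⋙ tilde.functor B ≅
      tilde.functor A ⋙ Scheme.Modules.pullback (Spec.map φ) :=
    (algebraAdj φ).leftAdjointUniq (schemeAdj φ)
  have key : ∀ n : N, (moduleSpecΓFunctor (R := B)).map (θ.hom.app N)
      (tilde.toOpen ((ModuleCat.extendScalars φ.hom).obj N) ⊤ ((1 : B) ⊗ₜ[A,φ.hom] n)) =
      unitSec (Spec.map φ) (tilde N) ⊤ (tilde.toOpen N ⊤ n) := fun n =>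
    congr($((algebraAdj φ).unit_leftAdjointUniq_hom_app (schemeAdj φ) N) n)
  let E := ((tilde.isoTop ((ModuleCat.extendScalars φ.hom).obj N)) ≪≫
      (moduleSpecΓFunctor (R := B)).mapIso (θ.app N)).toLinearEquiv
  let eA := (tilde.isoTop N).toLinearEquiv
  let : Algebra A B := φ.hom.toAlgebra
  have hE : ∀ n : N, E ((1 : B) ⊗ₜ[A,φ.hom] n) =
      unitSec (Spec.map φ) (tilde N) ⊤ (tilde.toOpen N ⊤ n) := key
  refine SemiBC.transfer (M := N) (f := AddMonoidHom.mk'
    (fun n => E ((1 : B) ⊗ₜ[A,φ.hom] n)) fun a b => ?_) ⟨E, fun n => rfl⟩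
    (RingEquiv.refl A) (RingEquiv.refl B) eA.toAddEquiv (AddEquiv.refl _) (fun _ => rfl)
    eA.map_smul (fun _ _ => rfl) fun n => ?_
  · exact (congr_arg E (TensorProduct.tmul_add _ _ _)).trans (map_add E _ _)
  · refine Eq.trans ?_ (hE n).symm
    exact res_self _ _ _

/-- Base change for quasi-coherent modules on affine schemes. -/
theorem semiBC_spec (φ : A ⟶ B) (M : (Spec A).Modules) [IsIso M.fromTildeΓ] :
    SemiBC φ.hom (sig (Spec.map φ) M (le_refl (Spec.map φ ⁻¹ᵁ ⊤)) :
      Γ(M, ⊤) →+ Γ((Scheme.Modules.pullback (Spec.map φ)).obj M, ⊤)) := by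
  let α := asIso M.fromTildeΓ
  let β := (Scheme.Modules.pullback (Spec.map φ)).mapIso α
  refine (semiBC_tilde φ _).transfer (RingEquiv.refl A) (RingEquiv.refl B)
    ((moduleSpecΓFunctor (R := A)).mapIso α).toLinearEquiv.toAddEquiv
    ((moduleSpecΓFunctor (R := B)).mapIso β).toLinearEquiv.toAddEquiv (fun _ => rfl)
    ((moduleSpecΓFunctor (R := A)).mapIso α).toLinearEquiv.map_smul
    ((moduleSpecΓFunctor (R := B)).mapIso β).toLinearEquiv.map_smul fun s => ?_
  exact (sig_natural (Spec.map φ) α.hom (le_refl (Spec.map φ ⁻¹ᵁ ⊤)) s).symm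

end Fermat.Agent.RelJac.Sheaf
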