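import Fermat.Agent.RelJac.Bridge.PullSect

/-!
Normalised isomorphisms and descent for modules trivialised along a section of a morphism with
constant functions.
-/

noncomputable section

universe u

open CategoryTheory AlgebraicGeometry TopologicalSpace

namespace Fermat.Agent.RelJac.Sheaf

variable {X T : Scheme.{u}}

/-- Multiplication by a function. -/
def scalarHom {U : X.Opens} (w : Γ(X, U)) (M : X.Modules) : SectHom M M U where
  app W hW :=
    { toFun := fun s => resO hW w • s
      map_add' := fun s t => smul_add _ s t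
      map_smul' := fun r s => by rw [RingHom.id_apply, smul_smul, smul_smul, mul_comm] }
  natural {V W} h hW s := by
    change resO (h.trans hW) w • res M h s = res M h (resO hW w • s)
    rw [res_smul, resO_resO]

@[simp] theorem scalarHom_app {U : X.Opens} (w : Γ(X, U)) (M : X.Modules) {W : X.Opens}
    (hW : W ≤ U) (s : Γ(M, W)) : (scalarHom w M).app W hW s = resO hW w • s := rfl

/-- A function as a section of the structure sheaf. -/
abbrev secO {W : X.Opens} (r : Γ(X, W)) : Γ(modO X, W) := r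

/-- A section of the structure sheaf as a function. -/
abbrev unO {W : X.Opens} (s : Γ(modO X, W)) : Γ(X, W) := s

theorem res_secO {V W : X.Opens} (h : V ≤ W) (r : Γ(X, W)) :
    res (modO X) h (secO r) = secO (resO h r) := rfl

theorem smul_eq_app_smul {U : X.Opens} (f : SectHom (modO X) (modO X) U) {W : X.Opens} (hW : W ≤ U)
    (t : Γ(modO X, W)) : f.app W hW t = unO t • f.app W hW (secO 1) :=
  (congr_arg _ (show t = unO t • secO 1 from (mul_one (unO t)).symm)).trans
    ((f.app W hW).map_smul _ _)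

theorem smul_swap {W : X.Opens} (s t : Γ(modO X, W)) : unO s • t = unO t • s :=
  mul_comm (unO s) (unO t)

theorem app_secO_one_res {U : X.Opens} {M : X.Modules} (f : SectHom (modO X) M U) {V W : X.Opens}
    (h : V ≤ W) (hW : W ≤ U) :
    res M h (f.app W hW (secO 1)) = f.app V (h.trans hW) (secO 1) := by
  rw [← f.natural h hW, res_secO]
  exact congr_arg _ (map_one (X.presheaf.map (homOfLE h).op).hom)

theorem exists_scalar {U : X.Opens} {M : X.Modules} (hM : IsInvertibleOn M U)
    (f : SectHom M M U) : ∃ a : Γ(X, U), f = scalarHom a M := by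
  choose O hxO he using fun x : U => hM x.1 x.2
  let V : U → X.Opens := fun x => O x ⊓ U
  have hcov : U ≤ ⨆ x, V x := fun x hx => Opens.mem_iSup.2 ⟨⟨x, hx⟩, hxO ⟨x, hx⟩, hx⟩
  let e : ∀ x, SectIso M (modO X) (V x) := fun x => (he x).some.restrict inf_le_left
  let g : ∀ x, SectHom (modO X) (modO X) (V x) := fun x =>
    (e x).inv.comp ((f.restrict inf_le_right).comp (e x).hom)
  let a : ∀ x, Γ(X, V x) := fun x => unO ((g x).app (V x) le_rfl (secO 1))
  have key : ∀ (x : U) (W : X.Opens) (hW : W ≤ V x) (hWU : W ≤ U) (s : Γ(M, W)),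
      f.app W hWU s = resO hW (a x) • s := by
    intro x W hW hWU s
    have h₁ : resO hW (a x) = unO ((g x).app W hW (secO 1)) :=
      app_secO_one_res (g x) hW le_rfl
    apply ((e x).linearEquiv W hW).injective
    rw [map_smul, h₁, SectIso.linearEquiv_apply, SectIso.linearEquiv_apply]
    refine Eq.trans ?_ ((smul_eq_app_smul (g x) hW ((e x).hom.app W hW s)).trans (smul_swap _ _))
    simp only [g, SectHom.comp_app, SectHom.restrict_app, (e x).hom_inv]
  have huniq : ∀ (x : U) (W : X.Opens) (_ : W ≤ V x) (b b' : Γ(X, W)),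
      (∀ s : Γ(M, W), b • s = b' • s) → b = b' := fun x W hW b b' hb => by
    have := congr_arg ((e x).hom.app W hW) (hb ((e x).inv.app W hW (secO 1)))
    rw [map_smul, map_smul, (e x).inv_hom] at this
    exact (mul_one b).symm.trans (this.trans (mul_one b'))
  obtain ⟨a', ha'⟩ := exists_res_eq (modO X) V (fun x => inf_le_right) hcov (fun x => secO (a x))
    fun x y => huniq x _ inf_le_left _ _ fun s =>
      (key x _ inf_le_left (inf_le_left.trans inf_le_right) s).symm.trans (key y _ inf_le_right _ s)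
  refine ⟨unO a', SectHom.eq_of_restrict_eq (fun x => inf_le_right) hcov fun x =>
    SectHom.hext fun W hW s => ?_⟩
  rw [SectHom.restrict_app, SectHom.restrict_app, key x W hW _ s, scalarHom_app]
  congr 1
  exact (congr_arg (fun t => resO hW (unO t)) (ha' x)).symm.trans (resO_resO hW inf_le_right (unO a'))

theorem appLE_eq_resO {g : X ⟶ X} {V W : X.Opens} (hg : g = 𝟙 X) (e : W ≤ g ⁻¹ᵁ V) (h : W ≤ V)
    (v : Γ(X, V)) : g.appLE V W e v = resO h v := by
  subst hg
  simp [Scheme.Hom.appLE]
  rfl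

variable (π : X ⟶ T) (σ : T ⟶ X) (hσ : σ ≫ π = 𝟙 T)

theorem preimage_section (hσ : σ ≫ π = 𝟙 T) (V : T.Opens) : σ ⁻¹ᵁ (π ⁻¹ᵁ V) = V := by
  rw [← Scheme.Hom.comp_preimage, hσ, Scheme.Hom.id_preimage]

theorem appLE_section (hσ : σ ≫ π = 𝟙 T) {V : T.Opens} {W : X.Opens} {W' : T.Opens}
    (hW : W ≤ π ⁻¹ᵁ V) (hle : W' ≤ σ ⁻¹ᵁ W) (hW' : W' ≤ V) (v : Γ(T, V)) :
    σ.appLE W W' hle (resO hW (π.app V v)) = resO hW' v := by
  refine Eq.trans ?_ (appLE_eq_resO hσ (by rw [hσ, Scheme.Hom.id_preimage]; exact hW') hW' v)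
  rw [← Scheme.Hom.appLE_comp_appLE σ π V W W' hW hle]
  rfl

/-- A trivialisation along the section over `V`. -/
abbrev RigOn (M : X.Modules) (V : T.Opens) :=
  SectIso ((Scheme.Modules.pullback σ).obj M) (modO T) V

variable {M N K : X.Modules} {V V' : T.Opens}

/-- `φ` respects the trivialisations along the section. -/
def Normalized (φ : SectHom M N (π ⁻¹ᵁ V)) (r : RigOn σ M V) (r' : RigOn σ N V) : Prop :=
  ((φ.pullback σ).restrict (preimage_section π σ hσ V).ge).comp r'.hom = r.hom

variable {π σ hσ}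

theorem normalized_iff (hM : IsInvertibleOn M (π ⁻¹ᵁ V)) {φ : SectHom M N (π ⁻¹ᵁ V)}
    {r : RigOn σ M V} {r' : RigOn σ N V} :
    Normalized π σ hσ φ r r' ↔ ∀ (W : X.Opens) (W' : T.Opens) (hW : W ≤ π ⁻¹ᵁ V) (hW' : W' ≤ V)
      (hle : W' ≤ σ ⁻¹ᵁ W) (s : Γ(M, W)),
        r'.hom.app W' hW' (sig σ N hle (φ.app W hW s)) = r.hom.app W' hW' (sig σ M hle s) := by
  refine ⟨fun h W W' hW hW' hle s => ?_, fun h => ?_⟩
  · rw [← h, SectHom.comp_app, SectHom.restrict_app, SectHom.pullback_sig σ φ hW]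
  · refine SectHom.ext_pullback σ hM (preimage_section π σ hσ V).ge fun W W' hW hW' hle s => ?_
    rw [SectHom.comp_app, SectHom.restrict_app, SectHom.pullback_sig σ φ hW]
    exact h W W' hW hW' hle s

/-- Normalised morphisms restrict to smaller open subsets. -/
theorem Normalized.restrict (hM : IsInvertibleOn M (π ⁻¹ᵁ V)) {φ : SectHom M N (π ⁻¹ᵁ V)}
    {r : RigOn σ M V} {r' : RigOn σ N V} (h : Normalized π σ hσ φ r r') (hV : V' ≤ V) :
    Normalized π σ hσ (φ.restrict (π.preimage_mono hV)) (r.restrict hV) (r'.restrict hV) :=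
  (normalized_iff (hM.mono (π.preimage_mono hV))).2 fun W W' hW hW' hle s =>
    (normalized_iff hM).1 h W W' (hW.trans (π.preimage_mono hV)) (hW'.trans hV) hle s

/-- A composite of normalised morphisms is normalised. -/
theorem Normalized.comp (hM : IsInvertibleOn M (π ⁻¹ᵁ V)) (hN : IsInvertibleOn N (π ⁻¹ᵁ V))
    {φ : SectHom M N (π ⁻¹ᵁ V)} {ψ : SectHom N K (π ⁻¹ᵁ V)} {r : RigOn σ M V} {r' : RigOn σ N V}
    {r'' : RigOn σ K V} (h : Normalized π σ hσ φ r r') (h' : Normalized π σ hσ ψ r' r'') :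
    Normalized π σ hσ (φ.comp ψ) r r'' :=
  (normalized_iff hM).2 fun W W' hW hW' hle s => by
    rw [SectHom.comp_app, (normalized_iff hN).1 h' W W' hW hW' hle,
      (normalized_iff hM).1 h W W' hW hW' hle]

/-- The inverse of a normalised isomorphism is normalised. -/
theorem Normalized.symm (hM : IsInvertibleOn M (π ⁻¹ᵁ V)) {φ : SectIso M N (π ⁻¹ᵁ V)}
    {r : RigOn σ M V} {r' : RigOn σ N V} (h : Normalized π σ hσ φ.hom r r') :
    Normalized π σ hσ φ.inv r' r :=
  (normalized_iff (hM.of_sectIso φ.symm)).2 fun W W' hW hW' hle s => by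
    rw [← (normalized_iff hM).1 h W W' hW hW' hle, φ.inv_hom]

variable (hπ : ∀ V : T.Opens, IsAffineOpen V → Function.Surjective (π.app V))

include hπ

theorem Normalized.eq_id (hM : IsInvertibleOn M (π ⁻¹ᵁ V)) {f : SectHom M M (π ⁻¹ᵁ V)}
    {r : RigOn σ M V} (h : Normalized π σ hσ f r r) : f = SectHom.id M (π ⁻¹ᵁ V) := by
  refine SectHom.eq_of_restrict_eq (V := fun O : {O : T.Opens // IsAffineOpen O ∧ O ≤ V} => π ⁻¹ᵁ O.1)
    (fun O => π.preimage_mono O.2.2) (fun x hx => ?_) fun ⟨O, hO, hOV⟩ => ?_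
  · obtain ⟨_, ⟨O, hO, rfl⟩, hxO, hOV⟩ := T.isBasis_affineOpens.exists_subset_of_mem_open hx V.2
    exact Opens.mem_iSup.2 ⟨⟨O, hO, hOV⟩, hxO⟩
  · have hM' := hM.mono (π.preimage_mono hOV)
    have h' := (normalized_iff hM').1 (h.restrict hM hOV)
    obtain ⟨a, ha⟩ := exists_scalar hM' (f.restrict (π.preimage_mono hOV))
    obtain ⟨b, rfl⟩ := hπ O hO a
    have hb : ((scalarHom b ((Scheme.Modules.pullback σ).obj M)).comp (r.restrict hOV).hom) =
        (r.restrict hOV).hom := by
      refine SectHom.ext_pullback σ hM' (preimage_section π σ hσ O).ge fun W W' hW hW' hle s => ?_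
      refine Eq.trans ?_ (h' W W' hW hW' hle s)
      rw [SectHom.comp_app, scalarHom_app, ha, scalarHom_app, sig_smul]
      congr 2
      exact (appLE_section π σ hσ hW hle hW' b).symm
    have hb1 : b = 1 := by
      have h₁ := congr(($hb).app O le_rfl ((r.restrict hOV).inv.app O le_rfl (secO 1)))
      rw [SectHom.comp_app, scalarHom_app, map_smul, (r.restrict hOV).inv_hom, resO_self] at h₁
      exact (mul_one b).symm.trans h₁
    refine SectHom.hext fun W hW s => ?_
    rw [ha, hb1, scalarHom_app, map_one]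
    simp [resO]

/-- A normalised isomorphism is unique. -/
theorem normalized_unique (hM : IsInvertibleOn M (π ⁻¹ᵁ V)) {φ ψ : SectIso M N (π ⁻¹ᵁ V)}
    {r : RigOn σ M V} {r' : RigOn σ N V} (h : Normalized π σ hσ φ.hom r r')
    (h' : Normalized π σ hσ ψ.hom r r') : φ.hom = ψ.hom := by
  have := (h.comp hM (hM.of_sectIso φ.symm) (h'.symm hM)).eq_id hπ hM
  refine SectHom.hext fun W hW s => ?_
  apply (ψ.symm.linearEquiv W hW).injective
  rw [SectIso.linearEquiv_apply, SectIso.linearEquiv_apply]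
  exact (congr(($this).app W hW s)).trans (ψ.hom_inv W hW s).symm

omit hπ

/-- An isomorphism can be normalised along the section. -/
theorem exists_normalized (hM : IsInvertibleOn M (π ⁻¹ᵁ V)) (φ : SectIso M N (π ⁻¹ᵁ V))
    (r : RigOn σ M V) (r' : RigOn σ N V) :
    ∃ ψ : SectIso M N (π ⁻¹ᵁ V), Normalized π σ hσ ψ.hom r r' := by
  let u : SectIso (modO T) (modO T) V :=
    r.symm.trans (((φ.pullback σ hM).restrict (preimage_section π σ hσ V).ge).trans r')
  let v : Γ(T, V) := unO (u.inv.app V le_rfl (secO 1))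
  let v' : Γ(T, V) := unO (u.hom.app V le_rfl (secO 1))
  have hv : v' * v = 1 :=
    (smul_eq_app_smul u.inv le_rfl (secO v')).symm.trans (u.hom_inv V le_rfl _)
  let w : Γ(X, π ⁻¹ᵁ V) := π.app V v
  let w' : Γ(X, π ⁻¹ᵁ V) := π.app V v'
  have hw : w' * w = 1 := (map_mul (π.app V).hom v' v).symm.trans (by rw [hv]; exact map_one _)
  let ψ : SectIso M N (π ⁻¹ᵁ V) :=
    { hom := (scalarHom w M).comp φ.hom
      inv := φ.inv.comp (scalarHom w' M)
      hom_inv := fun W hW s => by
        rw [SectHom.comp_app, SectHom.comp_app, φ.hom_inv, scalarHom_app, scalarHom_app, smul_smul,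
          resO, resO, ← map_mul, hw, map_one, one_smul]
      inv_hom := fun W hW s => by
        rw [SectHom.comp_app, SectHom.comp_app, scalarHom_app, scalarHom_app, smul_smul, resO, resO,
          ← map_mul, mul_comm w w', hw, map_one, one_smul, φ.inv_hom] }
  refine ⟨ψ, (normalized_iff hM).2 fun W W' hW hW' hle s => ?_⟩
  have h₁ : σ.appLE W W' hle (resO hW w) = resO hW' v := appLE_section π σ hσ hW hle hW' v
  have h₂ : r'.hom.app W' hW' (sig σ N hle (φ.hom.app W hW s)) =
      resO hW' v' • r.hom.app W' hW' (sig σ M hle s) := by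
    have hu : resO hW' v' = unO (u.hom.app W' hW' (secO 1)) := app_secO_one_res u.hom hW' le_rfl
    rw [hu]
    refine Eq.trans ?_ ((smul_eq_app_smul u.hom hW' (r.hom.app W' hW' (sig σ M hle s))).trans
      (smul_swap _ _))
    refine Eq.trans ?_ (congr_arg (fun t => r'.hom.app W' hW'
      ((φ.hom.pullback σ).app W' (hW'.trans (preimage_section π σ hσ V).ge) t))
        (r.hom_inv W' hW' (sig σ M hle s))).symm
    rw [SectHom.pullback_sig σ φ.hom hW]
  change r'.hom.app W' hW' (sig σ N hle (φ.hom.app W hW (resO hW w • s))) = _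
  rw [map_smul, sig_smul, map_smul, h₁, h₂, smul_smul, resO, resO, ← map_mul, mul_comm v v', hv,
    map_one, one_smul]

include hπ hσ

/-- Rigidified modules that are locally isomorphic over the base are isomorphic. -/
theorem nonempty_iso_of_local (hM : Scheme.Modules.IsInvertible M) (r : RigOn σ M ⊤)
    (r' : RigOn σ N ⊤) {ι : Type*} (V : ι → T.Opens) (hV : ⨆ i, V i = ⊤)
    (φ : ∀ i, SectIso M N (π ⁻¹ᵁ V i)) : Nonempty (M ≅ N) := by
  have iM : ∀ U, IsInvertibleOn M U := isInvertibleOn_of_isInvertible hM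
  choose ψ hψ using fun i => exists_normalized (hσ := hσ) (iM _) (φ i)
    (r.restrict (le_top : V i ≤ ⊤)) (r'.restrict le_top)
  obtain ⟨G, -⟩ := SectIso.exists_glue (U := ⊤) (V := fun i => π ⁻¹ᵁ V i) (fun _ => le_top)
    (by rw [← Scheme.Hom.preimage_iSup, hV]; exact le_of_eq (Scheme.Hom.preimage_top π).symm) ψ
    fun i j W hi hj s => by
      have h := normalized_unique hπ (iM _)
        (φ := (ψ i).restrict (π.preimage_mono (inf_le_left : V i ⊓ V j ≤ V i)))
        (ψ := (ψ j).restrict (π.preimage_mono (inf_le_right : V i ⊓ V j ≤ V j)))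
        ((hψ i).restrict (iM _) inf_le_left) ((hψ j).restrict (iM _) inf_le_right)
      exact congr(($h).app W (le_inf hi hj) s)
  exact ⟨G.toIso⟩

/-- Descent of rigidified modules along an open cover of the base. -/
theorem exists_glued {ι : Type u} (V : ι → T.Opens) (hV : ⨆ i, V i = ⊤) (F : ι → X.Modules)
    (hF : ∀ i, IsInvertibleOn (F i) (π ⁻¹ᵁ V i)) (r : ∀ i, RigOn σ (F i) (V i))
    (hφ : ∀ i j, Nonempty (SectIso (F i) (F j) (π ⁻¹ᵁ (V i ⊓ V j)))) :
    ∃ M : X.Modules, Scheme.Modules.IsInvertible M ∧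
      Nonempty ((Scheme.Modules.pullback σ).obj M ≅ modO T) ∧
      ∀ i, Nonempty (SectIso M (F i) (π ⁻¹ᵁ V i)) := by
  have hm : ∀ i (U : T.Opens), U ≤ V i → IsInvertibleOn (F i) (π ⁻¹ᵁ U) := fun i U h =>
    (hF i).mono (π.preimage_mono h)
  choose θ hθ using fun i j => exists_normalized (hσ := hσ) (hm i _ inf_le_left) (hφ i j).some
    ((r i).restrict inf_le_left) ((r j).restrict inf_le_right)
  have hcov : ⨆ i, π ⁻¹ᵁ V i = ⊤ := by rw [← Scheme.Hom.preimage_iSup, hV, Scheme.Hom.preimage_top]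
  let D : GlueData X :=
    { ι := ι
      U := fun i => π ⁻¹ᵁ V i
      F := F
      θ := fun i j => (θ i j).hom
      θ_self := fun i W hW s => congr(($((hθ i i).eq_id hπ (hm i _ inf_le_left))).app W hW s)
      θ_θ := fun i j k W hij hjk hik s => by
        let U := V i ⊓ V j ⊓ V k
        have hUij : U ≤ V i ⊓ V j := inf_le_left
        have hUjk : U ≤ V j ⊓ V k := inf_le_inf_right _ inf_le_right
        have hUik : U ≤ V i ⊓ V k := inf_le_inf_right _ inf_le_left
        have n₁ := (hθ i j).restrict (hm i _ inf_le_left) hUij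
        have n₂ := (hθ j k).restrict (hm j _ inf_le_left) hUjk
        have n₃ := (hθ i k).restrict (hm i _ inf_le_left) hUik
        have n₁₂ := n₁.comp (hm i _ (hUij.trans inf_le_left)) (hm j _ (hUjk.trans inf_le_left)) n₂
        have h := normalized_unique hπ (hm i _ (hUij.trans inf_le_left))
          (φ := ((θ i j).restrict (π.preimage_mono hUij)).trans
            ((θ j k).restrict (π.preimage_mono hUjk)))
          (ψ := (θ i k).restrict (π.preimage_mono hUik)) n₁₂ n₃
        exact congr(($h).app W (le_inf hij (hjk.trans inf_le_right)) s)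
      cover := hcov }
  let g : ∀ i, SectIso D.glue (F i) (π ⁻¹ᵁ V i) := fun i => D.glueIso i
  have hinv : IsInvertibleOn D.glue ⊤ := fun x hx => by
    obtain ⟨i, hi⟩ := Opens.mem_iSup.1 (hcov.ge hx)
    exact (hF i).of_sectIso (g i) x hi
  have hg : ∀ i, IsInvertibleOn D.glue (π ⁻¹ᵁ V i) := fun i => hinv.mono le_top
  let ρ : ∀ i, RigOn σ D.glue (V i) := fun i =>
    (((g i).pullback σ (hg i)).restrict (preimage_section π σ hσ (V i)).ge).trans (r i)
  obtain ⟨R, -⟩ := SectIso.exists_glue (U := ⊤) (fun _ => le_top) hV.ge ρ fun i j W hi hj s => by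
    have h : ((ρ i).restrict (inf_le_left : V i ⊓ V j ≤ V i)).hom =
        ((ρ j).restrict (inf_le_right : V i ⊓ V j ≤ V j)).hom := by
      refine SectHom.ext_pullback σ (hinv.mono le_top : IsInvertibleOn D.glue (π ⁻¹ᵁ (V i ⊓ V j)))
        (preimage_section π σ hσ _).ge fun O O' hO hO' hle t => ?_
      have hOi : O ≤ π ⁻¹ᵁ V i := hO.trans (π.preimage_mono inf_le_left)
      have hOj : O ≤ π ⁻¹ᵁ V j := hO.trans (π.preimage_mono inf_le_right)
      change (r i).hom.app O' (hO'.trans inf_le_left) (((g i).hom.pullback σ).app O'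
          ((hO'.trans inf_le_left).trans (preimage_section π σ hσ (V i)).ge) (sig σ D.glue hle t)) =
        (r j).hom.app O' (hO'.trans inf_le_right) (((g j).hom.pullback σ).app O'
          ((hO'.trans inf_le_right).trans (preimage_section π σ hσ (V j)).ge) (sig σ D.glue hle t))
      rw [SectHom.pullback_sig σ _ hOi, SectHom.pullback_sig σ _ hOj]
      have h₁ := (normalized_iff (hm i _ inf_le_left)).1 (hθ i j) O O' hO hO' hle
        ((g i).hom.app O hOi t)
      have h₂ : (θ i j).hom.app O hO ((g i).hom.app O hOi t) = (g j).hom.app O hOj t :=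
        D.glueIso_θ i j O hOi hOj t
      rw [h₂] at h₁
      exact h₁.symm
    exact congr(($h).app W (le_inf hi hj) s)
  exact ⟨D.glue, hinv.isInvertible, ⟨R.toIso⟩, fun i => ⟨g i⟩⟩

end Fermat.Agent.RelJac.Sheaf
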