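import Fermat.Agent.RelJac.DegreeOfModules
import Fermat.Agent.RelJac.Trivial
import Fermat.Agent.RelJac.Bridge.Normalized

/-!
The curve over an open part of the base, and functions on the preimage of an affine open subset of
the base.
-/

noncomputable section

universe u

open CategoryTheory CategoryTheory.Limits AlgebraicGeometry TopologicalSpace NeronModelInfra
open AlgebraicGeometry.RelPicard
open scoped TensorProduct

namespace Fermat.Agent.RelJac

open Sheaf (specOver chartRingEquiv resO secO)

section BaseChange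

variable {k : Type u} [CommRing k] {C : Scheme.{u}} (c : C ⟶ Spec (CommRingCat.of k))
  {T T' : Scheme.{u}} {t : T ⟶ Spec (CommRingCat.of k)} {t' : T' ⟶ Spec (CommRingCat.of k)}
  (g : SchemeHomOver t' t)

theorem isPullback_baseChangeSnd :
    IsPullback (baseChangeSnd c g) (pullback.snd c t') (pullback.snd c t) g.1 := by
  refine IsPullback.of_right ?_ (pullback.lift_snd _ _ _) (IsPullback.of_hasPullback c t)
  rw [g.2, show baseChangeSnd c g ≫ pullback.fst c t = pullback.fst c t' from
    (pullback.lift_fst _ _ _).trans (Category.comp_id _)]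
  exact IsPullback.of_hasPullback c t'

instance isOpenImmersion_baseChangeSnd [IsOpenImmersion g.1] :
    IsOpenImmersion (baseChangeSnd c g) :=
  MorphismProperty.of_isPullback (isPullback_baseChangeSnd c g).flip ‹IsOpenImmersion g.1›

/-- The image of the curve over an open part of the base is the preimage of that part. -/
theorem opensRange_baseChangeSnd [IsOpenImmersion g.1] :
    (baseChangeSnd c g).opensRange = pullback.snd c t ⁻¹ᵁ g.1.opensRange := by
  ext1
  rw [Scheme.Hom.coe_opensRange]
  have h := isPullback_baseChangeSnd c g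
  rw [← h.isoPullback_hom_fst, Scheme.Hom.comp_base, TopCat.coe_comp, Set.range_comp,
    Set.range_eq_univ.2 (Scheme.Hom.surjective _), Set.image_univ]
  exact Scheme.Pullback.range_fst _ _

/-- The marked section is a section of the projection. -/
theorem rigSection_snd (ε : SchemeHomOver (𝟙 (Spec (CommRingCat.of k))) c) :
    rigSection c t ε ≫ pullback.snd c t = 𝟙 T :=
  pullback.lift_snd _ _ _

end BaseChange

namespace CurveModel

variable {k : Type u} [Field k] {C : Scheme.{u}} {c : C ⟶ Spec (CommRingCat.of k)}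
  {ε : SchemeHomOver (𝟙 (Spec (CommRingCat.of k))) c} (D : CurveModel c ε)

/-- The functions on the curve over an affine scheme are the constants. -/
theorem snd_app_top_surjective (hT : D.T.HasConstantSections) (R : Type u) [CommRing R]
    [Algebra k R] :
    Function.Surjective ((pullback.snd c (specOver (k := k) R)).app ⊤) := by
  intro s
  let K := D.chartCover R
  let p := K.aP.symm (resO le_top s)
  let q := K.aQ.symm (resO le_top s)
  obtain ⟨r, hp, hq⟩ := (hT.baseChange (R := R)) p q (K.aL.injective (by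
    rw [K.commP, K.commQ]
    simp only [p, q, RingEquiv.apply_symm_apply]
    exact (Sheaf.resO_resO _ _ _).trans (Sheaf.resO_resO _ _ _).symm))
  have hI : (𝟙 (Spec (CommRingCat.of R)) : _ ⟶ _).opensRange = ⊤ :=
    Scheme.Hom.opensRange_of_isIso _
  refine ⟨chartRingEquiv (𝟙 _) hI r, ?_⟩
  have key : ∀ (U : (pullback c (specOver (k := k) R)).Opens) {P : Type u} [CommRing P]
      (i : Spec (CommRingCat.of P) ⟶ pullback c (specOver (k := k) R)) [IsOpenImmersion i]
      (hi : i.opensRange = U) (φ : R →+* P)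
      (_ : i ≫ pullback.snd c (specOver (k := k) R) =
        Spec.map (CommRingCat.ofHom φ) ≫ 𝟙 (Spec (CommRingCat.of R))),
      resO le_top ((pullback.snd c (specOver (k := k) R)).app ⊤ (chartRingEquiv (𝟙 _) hI r)) =
        chartRingEquiv i hi (φ r) := fun U P _ i _ hi φ hφ =>
    Sheaf.chartRingEquiv_natural (𝟙 _) hI i hi φ _ hφ le_top r
  refine Sheaf.eq_of_res_eq (Sheaf.modO (pullback c (specOver (k := k) R)))
    (fun b : Bool => bif b then K.UP else K.UQ) (fun _ => le_top)
    (fun x _ => ?_) (s := secO ((pullback.snd c (specOver (k := k) R)).app ⊤ _)) (t := secO s) ?_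
  · rcases (K.cover.ge (Set.mem_univ x) : x ∈ K.UP ⊔ K.UQ) with h | h
    exacts [Opens.mem_iSup.2 ⟨true, h⟩, Opens.mem_iSup.2 ⟨false, h⟩]
  · rintro (_ | _)
    · refine (key K.UQ (D.iQ R) rfl (algebraMap R (R ⊗[k] D.T.Q))
        (by rw [Category.comp_id]; exact Sheaf.chartMap_snd c R D.jQ D.jQ_over)).trans ?_
      exact (congr_arg K.aQ hq.symm).trans (K.aQ.apply_symm_apply _)
    · refine (key K.UP (D.iP R) rfl (algebraMap R (R ⊗[k] D.T.P))
        (by rw [Category.comp_id]; exact Sheaf.chartMap_snd c R D.jP D.jP_over)).trans ?_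
      exact (congr_arg K.aP hp.symm).trans (K.aP.apply_symm_apply _)

/-- Functions on the preimage of an affine open subset of the base come from the base. -/
theorem snd_app_surjective (hT : D.T.HasConstantSections) {T : Scheme.{u}}
    (t : T ⟶ Spec (CommRingCat.of k)) (V : T.Opens) (hV : IsAffineOpen V) :
    Function.Surjective ((pullback.snd c t).app V) := by
  intro s
  obtain ⟨_, ha⟩ := exists_algebra_specOver (k := k) (hV.fromSpec ≫ t)
  let g : SchemeHomOver (specOver (k := k) Γ(T, V)) t := ⟨hV.fromSpec, ha.symm⟩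
  have : IsOpenImmersion g.1 := inferInstanceAs (IsOpenImmersion hV.fromSpec)
  let j := baseChangeSnd c g
  have hj : pullback.snd c t ⁻¹ᵁ V ≤ j.opensRange := by
    rw [opensRange_baseChangeSnd, show g.1.opensRange = V from hV.opensRange_fromSpec]
  have htop : (⊤ : (pullback c (specOver (k := k) Γ(T, V))).Opens) ≤
      j ⁻¹ᵁ (pullback.snd c t ⁻¹ᵁ V) := fun x _ => by
    have h : j x ∈ j.opensRange := ⟨x, rfl⟩
    rw [opensRange_baseChangeSnd, show g.1.opensRange = V from hV.opensRange_fromSpec] at h
    exact h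
  have : IsIso (j.appLE (pullback.snd c t ⁻¹ᵁ V) ⊤ htop) := by
    have : IsIso (j.app (pullback.snd c t ⁻¹ᵁ V)) := j.isIso_app _ hj
    rw [Scheme.Hom.appLE, show homOfLE htop = eqToHom (top_unique htop).symm from rfl]
    infer_instance
  have htopV : (⊤ : (Spec (CommRingCat.of Γ(T, V))).Opens) ≤ g.1 ⁻¹ᵁ V :=
    hV.fromSpec_preimage_self.ge
  have : IsIso (g.1.appLE V ⊤ htopV) := by
    have : IsIso (g.1.app V) := g.1.isIso_app _ hV.opensRange_fromSpec.ge
    rw [Scheme.Hom.appLE, show homOfLE htopV = eqToHom (top_unique htopV).symm from rfl]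
    infer_instance
  have hcomm : (pullback.snd c t).app V ≫ j.appLE (pullback.snd c t ⁻¹ᵁ V) ⊤ htop =
      g.1.appLE V ⊤ htopV ≫ (pullback.snd c (specOver (k := k) Γ(T, V))).app ⊤ := by
    rw [Scheme.Hom.app_eq_appLE, Scheme.Hom.app_eq_appLE, Scheme.Hom.appLE_comp_appLE,
      Scheme.Hom.appLE_comp_appLE]
    simp only [j, (isPullback_baseChangeSnd c g).w]
    rfl
  obtain ⟨r, hr⟩ := D.snd_app_top_surjective hT Γ(T, V)
    (j.appLE (pullback.snd c t ⁻¹ᵁ V) ⊤ htop s)
  obtain ⟨v, rfl⟩ := (ConcreteCategory.bijective_of_isIso (g.1.appLE V ⊤ htopV)).2 r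
  exact ⟨v, (ConcreteCategory.bijective_of_isIso (j.appLE (pullback.snd c t ⁻¹ᵁ V) ⊤ htop)).1
    ((congr($hcomm v)).trans hr)⟩

end CurveModel

end Fermat.Agent.RelJac
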