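import Mathlib.RingTheory.PicardGroup
import Mathlib.RingTheory.LocalProperties.FinitePresentation
import Mathlib.Algebra.Module.LocalizedModule.Away
import Mathlib.Algebra.Module.FinitePresentation
import Mathlib.RingTheory.TensorProduct.Basic

/-!
A module that is free of rank one after localising at a generating family of elements is invertible.
-/

noncomputable section

universe u

open scoped TensorProduct

namespace Fermat.Agent.RelJac.Sheaf

/-- A module free of rank one after inverting each element of a family generating the unit ideal is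
invertible. -/
theorem invertible_of_away {A M : Type u} [CommRing A] [AddCommGroup M] [Module A M] (s : Set A)
    (hs : Ideal.span s = ⊤)
    (h : ∀ f : s, Nonempty (LocalizedModule.Away f.1 M ≃ₗ[A] Localization.Away f.1)) :
    Module.Invertible A M := by
  have hfp : Module.FinitePresentation A M :=
    Module.FinitePresentation.of_localizationSpan s hs fun f => by
      obtain ⟨e⟩ := h f
      exact .of_equiv ((e.extendScalarsOfIsLocalization (Submonoid.powers f.1)
        (Localization.Away f.1)).symm)
  -- a lift of each local trivialisation, together with an element where it is a power of `f`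
  have h₁ : ∀ f : s, ∃ (φ : M →ₗ[A] A) (m : M) (n : ℕ), φ m = f.1 ^ n := fun f => by
    obtain ⟨e⟩ := h f
    obtain ⟨φ, ⟨t, a, rfl⟩, hφ⟩ := Module.FinitePresentation.exists_lift_of_isLocalizedModule
      (.powers f.1) (Algebra.linearMap A (Localization.Away f.1))
      (e.toLinearMap ∘ₗ LocalizedModule.mkLinearMap (.powers f.1) M)
    obtain ⟨⟨m, ⟨t', b, rfl⟩⟩, hm⟩ := IsLocalizedModule.surj (.powers f.1)
      (LocalizedModule.mkLinearMap (.powers f.1) M) (e.symm 1)
    have h₂ := congr($hφ m)
    simp only [LinearMap.comp_apply, LinearMap.smul_apply, Submonoid.smul_def,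
      LinearEquiv.coe_coe] at h₂ hm
    rw [← hm, map_smul, e.apply_symm_apply, smul_smul] at h₂
    replace h₂ : algebraMap A (Localization.Away f.1) (φ m) =
        algebraMap A (Localization.Away f.1) (f.1 ^ a * f.1 ^ b) :=
      h₂.trans (Algebra.algebraMap_eq_smul_one _).symm
    obtain ⟨⟨t'', c, rfl⟩, hc⟩ := (IsLocalization.eq_iff_exists (.powers f.1) _).1 h₂
    refine ⟨φ, f.1 ^ c • m, c + (a + b), ?_⟩
    rw [map_smul, smul_eq_mul, pow_add, pow_add]
    exact hc
  choose φ m n hφm using h₁
  -- the rank one identity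
  have h₂ : ∀ (ψ : M →ₗ[A] A) (x y : M), ψ x • y = ψ y • x := fun ψ x y => by
    rw [← sub_eq_zero]
    set z := ψ x • y - ψ y • x
    have hz : ∀ f : s, ∃ j : ℕ, f.1 ^ j • z = 0 := fun f => by
      obtain ⟨e⟩ := h f
      let ι := LocalizedModule.mkLinearMap (.powers f.1) M
      suffices e (ι z) = 0 by
        obtain ⟨⟨t, j, rfl⟩, hj⟩ := (IsLocalizedModule.eq_zero_iff (.powers f.1) ι).1
          (e.injective (this.trans (map_zero e).symm))
        exact ⟨j, hj⟩
      let ψ' : LocalizedModule.Away f.1 M →ₗ[A] Localization.Away f.1 :=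
        IsLocalizedModule.map (.powers f.1) ι (Algebra.linearMap A (Localization.Away f.1)) ψ
      have hψ' : ∀ w, ψ' (ι w) = algebraMap A (Localization.Away f.1) (ψ w) := fun w =>
        IsLocalizedModule.map_apply (.powers f.1) ι (Algebra.linearMap A _) ψ w
      let χ : Localization.Away f.1 →ₗ[Localization.Away f.1] Localization.Away f.1 :=
        (ψ' ∘ₗ e.symm.toLinearMap).extendScalarsOfIsLocalization (.powers f.1) _
      have hχ : ∀ w, algebraMap A (Localization.Away f.1) (ψ w) = e (ι w) * χ 1 := fun w => by
        rw [← smul_eq_mul, ← map_smul, smul_eq_mul, mul_one, ← hψ']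
        exact congr_arg ψ' (e.symm_apply_apply _).symm
      simp only [z, map_sub, map_smul, Algebra.smul_def, hχ]
      ring
    by_contra hne
    have hI : Ideal.span s ≤ Ideal.radical (Submodule.annihilator (A ∙ z)) :=
      Ideal.span_le.2 fun f hf => by
        obtain ⟨j, hj⟩ := hz ⟨f, hf⟩
        exact ⟨j, by rw [Submodule.mem_annihilator_span_singleton]; exact hj⟩
    rw [hs, top_le_iff, Ideal.radical_eq_top, Ideal.eq_top_iff_one,
      Submodule.mem_annihilator_span_singleton, one_smul] at hI
    exact hne hI
  -- a partition of unity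
  have hI : Ideal.span (Set.range fun f : s => φ f (m f)) = ⊤ := by
    rw [← Ideal.radical_eq_top, eq_top_iff, ← hs, Ideal.span_le]
    intro f hf
    exact ⟨n ⟨f, hf⟩, Ideal.subset_span ⟨⟨f, hf⟩, hφm ⟨f, hf⟩⟩⟩
  rw [Ideal.eq_top_iff_one] at hI
  obtain ⟨d, hd⟩ := Finsupp.mem_span_range_iff_exists_finsupp.1 hI
  obtain ⟨c, hc, hsum⟩ : ∃ (t : Finset s) (c : s → A), ∑ f ∈ t, c f * φ f (m f) = 1 :=
    ⟨d.support, d, hd⟩
  let u : Module.Dual A M ⊗[A] M := ∑ f ∈ c, (hc f • φ f) ⊗ₜ m f
  have hu : ∀ x, contractLeft A M x • u = x := fun x => by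
    induction x using TensorProduct.induction_on with
    | zero => simp
    | tmul ψ y =>
      rw [contractLeft_apply, Finset.smul_sum]
      have : ψ = ∑ f ∈ c, ψ (m f) • (hc f • φ f) := LinearMap.ext fun w => by
        simp only [LinearMap.sum_apply, LinearMap.smul_apply, smul_eq_mul]
        calc ψ w = ∑ f ∈ c, hc f * φ f (m f) * ψ w := by rw [← Finset.sum_mul, hsum, one_mul]
          _ = _ := Finset.sum_congr rfl fun f _ => by
            have := congr(ψ $(h₂ (φ f) (m f) w))
            simp only [map_smul, smul_eq_mul] at this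
            rw [mul_assoc, this]
            ring
      conv_rhs => rw [this, TensorProduct.sum_tmul]
      refine Finset.sum_congr rfl fun f _ => ?_
      rw [← TensorProduct.tmul_smul, h₂ ψ y (m f), TensorProduct.tmul_smul,
        TensorProduct.smul_tmul']
    | add x y hx hy => rw [map_add, add_smul, hx, hy]
  refine ⟨⟨fun x y hxy => by rw [← hu x, ← hu y, hxy], fun a => ⟨a • u, ?_⟩⟩⟩
  rw [map_smul, map_sum]
  simp only [contractLeft_apply, LinearMap.smul_apply, smul_eq_mul]
  rw [hsum, mul_one]

end Fermat.Agent.RelJac.Sheaf
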