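import Fermat.Agent.RelJac.Bridge.Extend
import Fermat.Agent.RelJac.Bridge.LocallyFreeRankOne

/-!
Sections of invertible modules over affine open subsets.
-/

noncomputable section

universe u

open CategoryTheory AlgebraicGeometry TopologicalSpace
open scoped TensorProduct

namespace Fermat.Agent.RelJac.Sheaf

variable {X X' : Scheme.{u}}

theorem isInvertible_pullback_fromSpec {U : X.Opens} (hU : IsAffineOpen U) {M : X.Modules}
    (hM : IsInvertibleOn M U) :
    Scheme.Modules.IsInvertible ((Scheme.Modules.pullback hU.fromSpec).obj M) :=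
  isInvertible_pullback_of_on hM hU.fromSpec fun y =>
    hU.range_fromSpec.le ⟨y, rfl⟩

/-- Sections over an affine open subset as global sections on the spectrum. -/
def affineSecEquiv {U : X.Opens} (hU : IsAffineOpen U) (M : X.Modules) :
    Γ(M, U) ≃+ Γ((Scheme.Modules.pullback hU.fromSpec).obj M, ⊤) :=
  AddEquiv.ofBijective _ (sig_bijective hU.fromSpec M hU.opensRange_fromSpec.ge
    hU.fromSpec_preimage_self.symm)

theorem affineSecEquiv_apply {U : X.Opens} (hU : IsAffineOpen U) (M : X.Modules) (s : Γ(M, U)) :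
    affineSecEquiv hU M s = sig hU.fromSpec M hU.fromSpec_preimage_self.ge s := rfl

/-- The chart of an affine open subset induces the canonical identification of sections. -/
theorem fromSpec_appLE_top {U : X.Opens} (hU : IsAffineOpen U) :
    hU.fromSpec.appLE U ⊤ hU.fromSpec_preimage_self.ge = (Scheme.ΓSpecIso Γ(X, U)).inv := by
  rw [Scheme.Hom.appLE, IsAffineOpen.fromSpec_app_self, Category.assoc, ← Functor.map_comp]
  exact Category.comp_id _

theorem affineSecEquiv_smul {U : X.Opens} (hU : IsAffineOpen U) (M : X.Modules) (r : Γ(X, U))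
    (s : Γ(M, U)) : affineSecEquiv hU M (r • s) = r • affineSecEquiv hU M s := by
  rw [affineSecEquiv_apply, affineSecEquiv_apply, sig_smul, fromSpec_appLE_top]
  rw [Scheme.Modules.smul_Spec_def]
  rw [show (⊤ : (Spec Γ(X, U)).Opens).leTop = 𝟙 _ from rfl, op_id, CategoryTheory.Functor.map_id,
    ConcreteCategory.id_apply]

theorem sig_square (g : X' ⟶ X) (M : X.Modules) {Y Y' : Scheme.{u}} {j : Y ⟶ X} {j' : Y' ⟶ X'}
    {ψ : Y' ⟶ Y} (e : ψ ≫ j = j' ≫ g) {U : X.Opens} {U' : X'.Opens} (h : U' ≤ g ⁻¹ᵁ U)
    {hj : ⊤ ≤ j ⁻¹ᵁ U} {hψ : ⊤ ≤ ψ ⁻¹ᵁ (⊤ : Y.Opens)} {hj' : ⊤ ≤ j' ⁻¹ᵁ U'} (s : Γ(M, U)) :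
    ((Scheme.Modules.pullbackComp ψ j).app M ≪≫ (Scheme.Modules.pullbackCongr e).app M ≪≫
        ((Scheme.Modules.pullbackComp j' g).app M).symm).hom.app ⊤
      (sig ψ _ hψ (sig j M hj s)) = sig j' _ hj' (sig g M h s) := by
  simp only [Iso.trans_hom, Iso.app_hom, Iso.symm_hom, Iso.app_inv, Scheme.Modules.Hom.comp_app,
    ConcreteCategory.comp_apply]
  rw [sig_comp, sig_congr e, ← sig_comp j' g M h hj', ← ConcreteCategory.comp_apply,
    ← Scheme.Modules.Hom.comp_app, Iso.hom_inv_id_app]
  rfl

/-- Base change of sections along a morphism, between affine open subsets. -/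
theorem semiBC_sig (g : X' ⟶ X) {M : X.Modules}
    {U : X.Opens} {U' : X'.Opens} (hM : IsInvertibleOn M U) (hU : IsAffineOpen U)
    (hU' : IsAffineOpen U') (h : U' ≤ g ⁻¹ᵁ U) : SemiBC (g.appLE U U' h).hom (sig g M h) := by
  let φ := g.appLE U U' h
  let N := (Scheme.Modules.pullback hU.fromSpec).obj M
  have : N.IsQuasicoherent := isQuasicoherent_of_isInvertible (isInvertible_pullback_fromSpec hU hM)
  have e : Spec.map φ ≫ hU.fromSpec = hU'.fromSpec ≫ g := IsAffineOpen.SpecMap_appLE_fromSpec g hU hU' h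
  let a : (Scheme.Modules.pullback (Spec.map φ)).obj N ≅
      (Scheme.Modules.pullback hU'.fromSpec).obj ((Scheme.Modules.pullback g).obj M) :=
    (Scheme.Modules.pullbackComp (Spec.map φ) hU.fromSpec).app M ≪≫
    (Scheme.Modules.pullbackCongr e).app M ≪≫
    ((Scheme.Modules.pullbackComp hU'.fromSpec g).app M).symm
  let eA : Γ((Scheme.Modules.pullback (Spec.map φ)).obj N, ⊤) ≃ₗ[Γ(X', U')]
      Γ((Scheme.Modules.pullback hU'.fromSpec).obj ((Scheme.Modules.pullback g).obj M), ⊤) :=
    ((moduleSpecΓFunctor (R := Γ(X', U'))).mapIso a).toLinearEquiv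
  refine (semiBC_spec φ N).transfer (RingEquiv.refl _) (RingEquiv.refl _)
    (affineSecEquiv hU M).symm
    (eA.toAddEquiv.trans
      (affineSecEquiv hU' ((Scheme.Modules.pullback g).obj M)).symm) (fun _ => rfl)
    (fun r s => ?_) (fun r s => ?_) (fun s => ?_)
  · apply (affineSecEquiv hU M).injective
    rw [AddEquiv.apply_symm_apply, affineSecEquiv_smul, AddEquiv.apply_symm_apply]
    rfl
  · apply (affineSecEquiv hU' _).injective
    rw [affineSecEquiv_smul]
    simp only [AddEquiv.trans_apply, AddEquiv.apply_symm_apply, LinearEquiv.coe_toAddEquiv,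
      RingEquiv.refl_apply]
    exact eA.map_smul r s
  · obtain ⟨s, rfl⟩ := (affineSecEquiv hU M).surjective s
    rw [AddEquiv.symm_apply_apply, AddEquiv.trans_apply, ← (affineSecEquiv hU' _).symm_apply_apply
      (sig g M h s)]
    refine congr_arg _ ?_
    change affineSecEquiv hU' _ (sig g M h s) = a.hom.app ⊤
      (sig (Spec.map φ) N (le_refl (Spec.map φ ⁻¹ᵁ ⊤)) (affineSecEquiv hU M s))
    rw [affineSecEquiv_apply, affineSecEquiv_apply]
    exact (sig_square g M e h s).symm

/-- Restriction between affine open subsets is base change. -/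
theorem semiBC_res {M : X.Modules}
    {U V : X.Opens} (hM : IsInvertibleOn M U) (hU : IsAffineOpen U) (hV : IsAffineOpen V) (h : V ≤ U) :
    SemiBC (X.presheaf.map (homOfLE h).op).hom (M.presheaf.map (homOfLE h).op).hom := by
  refine (semiBC_sig (𝟙 X) hM hU hV h).transfer (RingEquiv.refl _) (RingEquiv.refl _)
    (AddEquiv.refl _)
    ((SectIso.ofIso ((Scheme.Modules.pullbackId X).app M) V).linearEquiv V le_rfl).toAddEquiv
    (fun x => ?_) (fun _ _ => rfl) (fun r s => ?_) fun s => ?_
  · simp [Scheme.Hom.appLE]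
    rfl
  · exact ((SectIso.ofIso ((Scheme.Modules.pullbackId X).app M) V).linearEquiv V le_rfl).map_smul r s
  · exact (sig_id M h s).symm

theorem isLocalizing_of_isInvertible {A : CommRingCat.{u}} {M : (Spec A).Modules}
    (hM : Scheme.Modules.IsInvertible M) : IsLocalizing (modulesSpecToSheaf.obj M) := by
  have := isQuasicoherent_of_isInvertible hM
  exact (isIso_fromTildeΓ_iff_isLocalizing M).1 inferInstance

theorem invertible_gamma_spec {A : CommRingCat.{u}} {M : (Spec A).Modules}
    (hM : Scheme.Modules.IsInvertible M) : Module.Invertible A Γ(M, ⊤) := by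
  let D : A → (Spec A).Opens := fun f => PrimeSpectrum.basicOpen f
  let s : Set A := {f | Nonempty (SectIso M (SheafOfModules.unit (Spec A).ringCatSheaf) (D f))}
  have hs : Ideal.span s = ⊤ := by
    by_contra hne
    obtain ⟨p, hp, hle⟩ := Ideal.exists_le_maximal _ hne
    let x : Spec A := ⟨p, hp.isPrime⟩
    obtain ⟨U, hx, ⟨e⟩⟩ := exists_sectIso_unit hM x
    obtain ⟨_, ⟨_, ⟨f, rfl⟩, rfl⟩, hxf, hfU⟩ :=
      PrimeSpectrum.isBasis_basic_opens.exists_subset_of_mem_open hx U.2
    exact hxf (hle (Ideal.subset_span ⟨e.restrict hfU⟩))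
  refine invertible_of_away s hs fun ⟨f, ⟨e⟩⟩ => ?_
  let rM : Γ(M, ⊤) →ₗ[A] Γ(M, D f) :=
    ((modulesSpecToSheaf.obj M).obj.map (D f).leTop.op).hom
  have : IsLocalizedModule (Submonoid.powers f) rM := isLocalizing_of_isInvertible hM f
  let O : (Spec A).Modules := SheafOfModules.unit (Spec A).ringCatSheaf
  let rO : Γ(O, ⊤) →ₗ[A] Γ(O, D f) :=
    ((modulesSpecToSheaf.obj O).obj.map (D f).leTop.op).hom
  have : IsLocalizedModule (Submonoid.powers f) rO :=
    isLocalizing_of_isInvertible (Scheme.Modules.isInvertible_unit _) f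
  let eO : A ≃ₗ[A] Γ(O, ⊤) :=
    (tilde.isoTop (ModuleCat.of A A) ≪≫ (moduleSpecΓFunctor (R := A)).mapIso tildeSelf).toLinearEquiv
  let e₂ : Γ(O, D f) ≃ₗ[A] Localization.Away f :=
    IsLocalizedModule.linearEquiv (Submonoid.powers f) (rO ∘ₗ eO.toLinearMap)
      (Algebra.linearMap A (Localization.Away f))
  let e₁ : Γ(M, D f) ≃ₗ[A] Γ(O, D f) := ?_
  exact ⟨(IsLocalizedModule.iso (Submonoid.powers f) rM).trans (e₁.trans e₂)⟩
  let e' : SectIso M O (D f) := e
  exact { (e'.linearEquiv (D f) le_rfl).toAddEquiv with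
    map_smul' := fun r x => (e'.linearEquiv (D f) le_rfl).map_smul
      ((Spec A).presheaf.map (D f).leTop.op ((Scheme.ΓSpecIso A).inv r)) x }

/-- Sections of an invertible module over an affine open subset form an invertible module. -/
theorem invertible_gamma {M : X.Modules} {U : X.Opens} (hM : IsInvertibleOn M U)
    (hU : IsAffineOpen U) : Module.Invertible Γ(X, U) Γ(M, U) := by
  have := invertible_gamma_spec (isInvertible_pullback_fromSpec hU hM)
  exact Module.Invertible.congr (LinearEquiv.symm
    { affineSecEquiv hU M with map_smul' := fun r s => affineSecEquiv_smul hU M r s })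

/-- Linear maps out of a base change are determined on the image. -/
theorem semiBC_ext {A B P Q : Type u} [CommRing A] [CommRing B] [AddCommGroup P] [Module A P]
    [AddCommGroup Q] [Module B Q] {φ : A →+* B} {f : P →+ Q} (h : SemiBC φ f) {K : Type u}
    [AddCommGroup K] [Module B K] {g g' : Q →ₗ[B] K} (hg : ∀ p, g (f p) = g' (f p)) : g = g' := by
  let : Algebra A B := φ.toAlgebra
  obtain ⟨e, he⟩ := h
  refine LinearMap.ext fun q => ?_
  obtain ⟨t, rfl⟩ := e.surjective q
  induction t using TensorProduct.induction_on with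
  | zero => simp
  | tmul b p =>
    have : e (b ⊗ₜ p) = b • f p := by
      rw [← he, ← map_smul, TensorProduct.smul_tmul', smul_eq_mul, mul_one]
    rw [this, map_smul, map_smul, hg]
  | add x y hx hy => simp only [map_add, hx, hy]

/-- A morphism out of an invertible module over an affine open subset is determined by its map on
sections over it. -/
theorem SectHom.ext_affine {M N : X.Modules} {U : X.Opens} (hM : IsInvertibleOn M U)
    (hU : IsAffineOpen U) {f g : SectHom M N U}
    (h : ∀ s, f.app U le_rfl s = g.app U le_rfl s) : f = g := by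
  refine SectHom.hext fun W hW s => ?_
  refine eq_of_res_eq N (fun V : {V : X.Opens // IsAffineOpen V ∧ V ≤ W} => V.1)
    (fun V => V.2.2) (fun x hx => ?_) fun V => ?_
  · obtain ⟨_, ⟨V, hV, rfl⟩, hxV, hVW⟩ := X.isBasis_affineOpens.exists_subset_of_mem_open hx W.2
    exact Opens.mem_iSup.2 ⟨⟨V, hV, hVW⟩, hxV⟩
  · rw [← f.natural, ← g.natural]
    refine LinearMap.congr_fun (semiBC_ext (semiBC_res hM hU V.2.1 (V.2.2.trans hW)) fun t => ?_) _
    exact ((f.natural (V.2.2.trans hW) le_rfl t).trans (congr_arg _ (h t))).trans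
      (g.natural (V.2.2.trans hW) le_rfl t).symm

/-- A linear map between sections over an affine open subset extends. -/
theorem SectHom.exists_extend {M N : X.Modules} {U : X.Opens} (hM : IsInvertibleOn M U)
    (hU : IsAffineOpen U) (f : Γ(M, U) →ₗ[Γ(X, U)] Γ(N, U)) :
    ∃ g : SectHom M N U, ∀ s, g.app U le_rfl s = f s := by
  let M' := (Scheme.Modules.pullback hU.fromSpec).obj M
  let N' := (Scheme.Modules.pullback hU.fromSpec).obj N
  have : M'.IsQuasicoherent :=
    isQuasicoherent_of_isInvertible (isInvertible_pullback_fromSpec hU hM)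
  let f₀ : Γ(M', ⊤) →ₗ[Γ(X, U)] Γ(N', ⊤) :=
      { toFun := fun x => affineSecEquiv hU N (f ((affineSecEquiv hU M).symm x))
        map_add' := fun x y => by
          exact (congr_arg (fun t => affineSecEquiv hU N (f t))
            (map_add (affineSecEquiv hU M).symm x y)).trans (by rw [map_add, map_add])
        map_smul' := fun r x => by
          obtain ⟨x, rfl⟩ := (affineSecEquiv hU M).surjective x
          rw [RingHom.id_apply]
          refine (congr_arg (fun t => affineSecEquiv hU N (f ((affineSecEquiv hU M).symm t)))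
            (affineSecEquiv_smul hU M r x).symm).trans ?_
          rw [AddEquiv.symm_apply_apply, map_smul, affineSecEquiv_smul, AddEquiv.symm_apply_apply] }
  let f' : (moduleSpecΓFunctor (R := Γ(X, U))).obj M' ⟶ (moduleSpecΓFunctor (R := Γ(X, U))).obj N' :=
    ModuleCat.homEquiv.symm f₀
  have : IsIso ((tilde.adjunction (R := Γ(X, U))).counit.app M') :=
    inferInstanceAs (IsIso M'.fromTildeΓ)
  let φ : M' ⟶ N' := inv ((tilde.adjunction (R := Γ(X, U))).counit.app M') ≫
    (tilde.functor Γ(X, U)).map f' ≫ (tilde.adjunction (R := Γ(X, U))).counit.app N'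
  have key : (moduleSpecΓFunctor (R := Γ(X, U))).map φ = f' := by
    let adj := tilde.adjunction (R := Γ(X, U))
    let G := moduleSpecΓFunctor (R := Γ(X, U))
    have h₁ : inv (G.map (adj.counit.app M')) = adj.unit.app (G.obj M') := by
      apply IsIso.inv_eq_of_inv_hom_id
      exact adj.right_triangle_components M'
    calc G.map φ = inv (G.map (adj.counit.app M')) ≫ G.map ((tilde.functor _).map f') ≫
          G.map (adj.counit.app N') := by
          simp only [φ, Functor.map_comp, Functor.map_inv]; rfl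
      _ = (adj.unit.app (G.obj M') ≫ G.map ((tilde.functor _).map f')) ≫
          G.map (adj.counit.app N') := by rw [h₁]; exact (Category.assoc _ _ _).symm
      _ = (f' ≫ adj.unit.app (G.obj N')) ≫ G.map (adj.counit.app N') :=
          congr_arg (· ≫ _) (adj.unit.naturality f').symm
      _ = f' ≫ (adj.unit.app (G.obj N') ≫ G.map (adj.counit.app N')) := Category.assoc _ _ _
      _ = f' ≫ 𝟙 _ := congr_arg (f' ≫ ·) (adj.right_triangle_components N')
      _ = f' := Category.comp_id _
  refine ⟨SectHom.ofPullback hU.fromSpec hU.opensRange_fromSpec.ge φ, fun s => ?_⟩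
  apply (affineSecEquiv hU N).injective
  rw [affineSecEquiv_apply, SectHom.sig_ofPullback]
  refine (congr($key (affineSecEquiv hU M s))).trans ?_
  exact congr_arg (fun t => affineSecEquiv hU N (f t)) ((affineSecEquiv hU M).symm_apply_apply s)

/-- A linear equivalence between sections over an affine open subset extends. -/
theorem SectIso.exists_extend {M N : X.Modules} {U : X.Opens} (hM : IsInvertibleOn M U)
    (hN : IsInvertibleOn N U) (hU : IsAffineOpen U) (f : Γ(M, U) ≃ₗ[Γ(X, U)] Γ(N, U)) :
    ∃ g : SectIso M N U, ∀ s, g.hom.app U le_rfl s = f s := by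
  obtain ⟨g, hg⟩ := SectHom.exists_extend hM hU f.toLinearMap
  obtain ⟨g', hg'⟩ := SectHom.exists_extend hN hU f.symm.toLinearMap
  have h₁ : g.comp g' = SectHom.id M U := SectHom.ext_affine hM hU fun s => by
    simp [hg, hg']
  have h₂ : g'.comp g = SectHom.id N U := SectHom.ext_affine hN hU fun s => by
    simp [hg, hg']
  exact ⟨⟨g, g', fun W hW s => congr(($h₁).app W hW s), fun W hW s => congr(($h₂).app W hW s)⟩, hg⟩

end Fermat.Agent.RelJac.Sheaf
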