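import Fermat.Agent.RelJac.Bundle
import Fermat.Agent.RelJac.Bridge.Sections

/-!
The bundle of an invertible module on a scheme covered by two affine charts.
-/

noncomputable section

universe u

open CategoryTheory AlgebraicGeometry TopologicalSpace
open scoped TensorProduct

namespace Fermat.Agent.RelJac.Sheaf

variable {X : Scheme.{u}} {A : Type u} [CommRing A] {U : X.Opens}

/-- Sections over `U`, seen as a module over a ring identified with the functions on `U`. -/
def ChartSec (_a : A ≃+* Γ(X, U)) (M : X.Modules) : Type u := Γ(M, U)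

variable (a : A ≃+* Γ(X, U)) (M : X.Modules)

instance : AddCommGroup (ChartSec a M) := inferInstanceAs (AddCommGroup Γ(M, U))

instance : Module A (ChartSec a M) :=
  letI : Module Γ(X, U) (ChartSec a M) := inferInstanceAs (Module Γ(X, U) Γ(M, U))
  Module.compHom (ChartSec a M) a.toRingHom

/-- The identification with sections. -/
def chartSecEquiv : ChartSec a M ≃+ Γ(M, U) := AddEquiv.refl _

/-- The identification with sections is semilinear. -/
theorem chartSecEquiv_smul (r : A) (s : ChartSec a M) :
    chartSecEquiv a M (r • s) = a r • chartSecEquiv a M s := rfl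

/-- The inverse identification with sections is semilinear. -/
theorem chartSecEquiv_symm_smul (r : Γ(X, U)) (s : Γ(M, U)) :
    (chartSecEquiv a M).symm (r • s) = a.symm r • (chartSecEquiv a M).symm s := by
  apply (chartSecEquiv a M).injective
  rw [chartSecEquiv_smul, AddEquiv.apply_symm_apply, AddEquiv.apply_symm_apply,
    RingEquiv.apply_symm_apply]

/-- Invertibility is invariant under semilinear bijections. -/
theorem invertible_of_semilinear {A B M N : Type u} [CommRing A] [CommRing B] [AddCommGroup M]
    [Module A M] [AddCommGroup N] [Module B N] (b : A ≃+* B) (e : M ≃+ N)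
    (he : ∀ (r : A) m, e (r • m) = b r • e m) [Module.Invertible A M] : Module.Invertible B N := by
  have h₁ : SemiBC (RingHom.id A) (AddMonoidHom.id M) :=
    semiBC_of_isBaseChange rfl (IsBaseChange.ofEquiv (LinearEquiv.refl A M))
  let : Algebra A B := b.toRingHom.toAlgebra
  obtain ⟨i, -⟩ := h₁.transfer (φ' := b.toRingHom) (f' := e.toAddMonoidHom) (RingEquiv.refl A) b
    (AddEquiv.refl M) e (fun _ => rfl) (fun _ _ => rfl) he fun _ => rfl
  exact Module.Invertible.congr i

variable {M}

/-- Sections of an invertible module over an affine open subset form an invertible module. -/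
theorem invertible_chartSec (hM : IsInvertibleOn M U) (hU : IsAffineOpen U) :
    Module.Invertible A (ChartSec a M) :=
  have := invertible_gamma hM hU
  invertible_of_semilinear a.symm (chartSecEquiv a M).symm (chartSecEquiv_symm_smul a M)

variable {R : Type u} [CommRing R]

/-- A scheme covered by two affine opens whose rings of functions are those of a two-chart space. -/
structure ChartCover (T : TwoChart R) (X : Scheme.{u}) where
  UP : X.Opens
  UQ : X.Opens
  affineP : IsAffineOpen UP
  affineQ : IsAffineOpen UQ
  affineL : IsAffineOpen (UP ⊓ UQ)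
  cover : UP ⊔ UQ = ⊤
  aP : T.P ≃+* Γ(X, UP)
  aQ : T.Q ≃+* Γ(X, UQ)
  aL : T.L ≃+* Γ(X, UP ⊓ UQ)
  commP : ∀ p, aL (algebraMap T.P T.L p) = resO inf_le_left (aP p)
  commQ : ∀ q, aL (algebraMap T.Q T.L q) = resO inf_le_right (aQ q)

namespace ChartCover

variable {T : TwoChart R} (C : ChartCover T X)

instance modPL (M : X.Modules) : Module T.P (ChartSec C.aL M) :=
  Module.compHom _ (algebraMap T.P T.L)

instance modQL (M : X.Modules) : Module T.Q (ChartSec C.aL M) :=
  Module.compHom _ (algebraMap T.Q T.L)

instance towerPL (M : X.Modules) : IsScalarTower T.P T.L (ChartSec C.aL M) :=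
  IsScalarTower.of_algebraMap_smul fun _ _ => rfl

instance towerQL (M : X.Modules) : IsScalarTower T.Q T.L (ChartSec C.aL M) :=
  IsScalarTower.of_algebraMap_smul fun _ _ => rfl

/-- Restriction from the first chart to the overlap. -/
def resP (M : X.Modules) : ChartSec C.aP M →ₗ[T.P] ChartSec C.aL M where
  toFun s := (chartSecEquiv C.aL M).symm (res M inf_le_left (chartSecEquiv C.aP M s))
  map_add' s t := by simp [res]
  map_smul' r s := by
    rw [RingHom.id_apply, ← IsScalarTower.algebraMap_smul T.L r
      ((chartSecEquiv C.aL M).symm (res M inf_le_left (chartSecEquiv C.aP M s))),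
      AddEquiv.symm_apply_eq, chartSecEquiv_smul, chartSecEquiv_smul, C.commP, res_smul,
      AddEquiv.apply_symm_apply]

/-- Restriction from the second chart to the overlap. -/
def resQ (M : X.Modules) : ChartSec C.aQ M →ₗ[T.Q] ChartSec C.aL M where
  toFun s := (chartSecEquiv C.aL M).symm (res M inf_le_right (chartSecEquiv C.aQ M s))
  map_add' s t := by simp [res]
  map_smul' r s := by
    rw [RingHom.id_apply, ← IsScalarTower.algebraMap_smul T.L r
      ((chartSecEquiv C.aL M).symm (res M inf_le_right (chartSecEquiv C.aQ M s))),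
      AddEquiv.symm_apply_eq, chartSecEquiv_smul, chartSecEquiv_smul, C.commQ, res_smul,
      AddEquiv.apply_symm_apply]

/-- Restriction from the first chart is restriction of sections. -/
theorem resP_apply (M : X.Modules) (s : ChartSec C.aP M) :
    chartSecEquiv C.aL M (C.resP M s) = res M inf_le_left (chartSecEquiv C.aP M s) := rfl

/-- Restriction from the second chart is restriction of sections. -/
theorem resQ_apply (M : X.Modules) (s : ChartSec C.aQ M) :
    chartSecEquiv C.aL M (C.resQ M s) = res M inf_le_right (chartSecEquiv C.aQ M s) := rfl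

variable {M : X.Modules}

/-- Sections over the overlap are the base change of those over the first chart. -/
theorem isBaseChange_resP (hM : IsInvertibleOn M C.UP) : IsBaseChange T.L (C.resP M) := by
  refine SemiBC.isBaseChange (f := (C.resP M).toAddMonoidHom) ?_ rfl (C.resP M) fun _ => rfl
  exact (semiBC_res hM C.affineP C.affineL inf_le_left).transfer C.aP.symm C.aL.symm
    (chartSecEquiv C.aP M).symm (chartSecEquiv C.aL M).symm
    (fun x => by
      apply C.aL.injective
      rw [C.aL.apply_symm_apply, C.commP, C.aP.apply_symm_apply])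
    (chartSecEquiv_symm_smul _ M) (chartSecEquiv_symm_smul _ M) fun _ => rfl

/-- Sections over the overlap are the base change of those over the second chart. -/
theorem isBaseChange_resQ (hM : IsInvertibleOn M C.UQ) : IsBaseChange T.L (C.resQ M) := by
  refine SemiBC.isBaseChange (f := (C.resQ M).toAddMonoidHom) ?_ rfl (C.resQ M) fun _ => rfl
  exact (semiBC_res hM C.affineQ C.affineL inf_le_right).transfer C.aQ.symm C.aL.symm
    (chartSecEquiv C.aQ M).symm (chartSecEquiv C.aL M).symm
    (fun x => by
      apply C.aL.injective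
      rw [C.aL.apply_symm_apply, C.commQ, C.aQ.apply_symm_apply])
    (chartSecEquiv_symm_smul _ M) (chartSecEquiv_symm_smul _ M) fun _ => rfl

/-- The bundle of an invertible module. -/
@[reducible] def bundleOf (M : X.Modules) (hM : Scheme.Modules.IsInvertible M) : Bundle T where
  MP := ChartSec C.aP M
  MQ := ChartSec C.aQ M
  ML := ChartSec C.aL M
  modRP := Module.compHom _ (algebraMap R T.P)
  modRQ := Module.compHom _ (algebraMap R T.Q)
  modRL := Module.compHom _ (algebraMap R T.L)
  towerRP := letI : Module R (ChartSec C.aP M) := Module.compHom _ (algebraMap R T.P)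
    IsScalarTower.of_algebraMap_smul fun _ _ => rfl
  towerRQ := letI : Module R (ChartSec C.aQ M) := Module.compHom _ (algebraMap R T.Q)
    IsScalarTower.of_algebraMap_smul fun _ _ => rfl
  towerRL := letI : Module R (ChartSec C.aL M) := Module.compHom _ (algebraMap R T.L)
    IsScalarTower.of_algebraMap_smul fun _ _ => rfl
  invP := invertible_chartSec C.aP (isInvertibleOn_of_isInvertible hM _) C.affineP
  invQ := invertible_chartSec C.aQ (isInvertibleOn_of_isInvertible hM _) C.affineQ
  ip := C.resP M
  iq := C.resQ M
  baseP := C.isBaseChange_resP (isInvertibleOn_of_isInvertible hM _)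
  baseQ := C.isBaseChange_resQ (isInvertibleOn_of_isInvertible hM _)

/-- The class of an invertible module. -/
def clsOf (M : X.Modules) (hM : Scheme.Modules.IsInvertible M) : Bundle.Cls T :=
  (C.bundleOf M hM).cls

/-- A semilinear reformulation of a linear map on chart sections. -/
def toSecMap (a : A ≃+* Γ(X, U)) {M N : X.Modules} (f : ChartSec a M ≃ₗ[A] ChartSec a N) :
    Γ(M, U) ≃ₗ[Γ(X, U)] Γ(N, U) :=
  { ((chartSecEquiv a M).symm.trans f.toAddEquiv).trans (chartSecEquiv a N) with
    map_smul' := fun r s => by
      change chartSecEquiv a N (f ((chartSecEquiv a M).symm (r • s))) = r • chartSecEquiv a N (f _)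
      rw [chartSecEquiv_symm_smul, map_smul, chartSecEquiv_smul, RingEquiv.apply_symm_apply]
      rfl }

/-- A linear equivalence on chart sections from one on sections. -/
def ofSecMap (a : A ≃+* Γ(X, U)) {M N : X.Modules} (f : Γ(M, U) ≃ₗ[Γ(X, U)] Γ(N, U)) :
    ChartSec a M ≃ₗ[A] ChartSec a N :=
  { ((chartSecEquiv a M).trans f.toAddEquiv).trans (chartSecEquiv a N).symm with
    map_smul' := fun r s => by
      change (chartSecEquiv a N).symm (f (chartSecEquiv a M (r • s))) = r • (chartSecEquiv a N).symm _
      rw [chartSecEquiv_smul, map_smul, chartSecEquiv_symm_smul, RingEquiv.symm_apply_apply]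
      rfl }

/-- The isomorphism of bundles of an isomorphism of modules. -/
def bundleIso {N : X.Modules} (hM : Scheme.Modules.IsInvertible M)
    (hN : Scheme.Modules.IsInvertible N) (e : M ≅ N) :
    Bundle.Iso (C.bundleOf M hM) (C.bundleOf N hN) where
  eP := ofSecMap C.aP ((SectIso.ofIso e ⊤).linearEquiv C.UP le_top)
  eQ := ofSecMap C.aQ ((SectIso.ofIso e ⊤).linearEquiv C.UQ le_top)
  eL := ofSecMap C.aL ((SectIso.ofIso e ⊤).linearEquiv (C.UP ⊓ C.UQ) le_top)
  commP _ := (SectIso.ofIso e ⊤).hom.natural (inf_le_left : C.UP ⊓ C.UQ ≤ C.UP) le_top _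
  commQ _ := (SectIso.ofIso e ⊤).hom.natural (inf_le_right : C.UP ⊓ C.UQ ≤ C.UQ) le_top _

theorem exists_sectIso_of_bundleIso {N : X.Modules} (hM : Scheme.Modules.IsInvertible M)
    (hN : Scheme.Modules.IsInvertible N) (e : Bundle.Iso (C.bundleOf M hM) (C.bundleOf N hN)) :
    Nonempty (M ≅ N) := by
  have iM := fun V => isInvertibleOn_of_isInvertible hM (U := V)
  have iN := fun V => isInvertibleOn_of_isInvertible hN (U := V)
  obtain ⟨gP, hgP⟩ := SectIso.exists_extend (iM C.UP) (iN C.UP) C.affineP (toSecMap C.aP e.eP)
  obtain ⟨gQ, hgQ⟩ := SectIso.exists_extend (iM C.UQ) (iN C.UQ) C.affineQ (toSecMap C.aQ e.eQ)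
  have hP : gP.hom.app (C.UP ⊓ C.UQ) inf_le_left = (toSecMap C.aL e.eL).toLinearMap :=
    semiBC_ext (semiBC_res (iM C.UP) C.affineP C.affineL inf_le_left) fun s =>
      (gP.hom.natural (inf_le_left : C.UP ⊓ C.UQ ≤ C.UP) le_rfl s).trans
        ((congr_arg (res N _) (hgP s)).trans
          (congr_arg (chartSecEquiv C.aL N) (e.commP ((chartSecEquiv C.aP M).symm s))).symm)
  have hQ : gQ.hom.app (C.UP ⊓ C.UQ) inf_le_right = (toSecMap C.aL e.eL).toLinearMap :=
    semiBC_ext (semiBC_res (iM C.UQ) C.affineQ C.affineL inf_le_right) fun s =>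
      (gQ.hom.natural (inf_le_right : C.UP ⊓ C.UQ ≤ C.UQ) le_rfl s).trans
        ((congr_arg (res N _) (hgQ s)).trans
          (congr_arg (chartSecEquiv C.aL N) (e.commQ ((chartSecEquiv C.aQ M).symm s))).symm)
  have hPQ : gP.hom.restrict (inf_le_left : C.UP ⊓ C.UQ ≤ _) = gQ.hom.restrict inf_le_right :=
    SectHom.ext_affine (iM _) C.affineL fun s => by
      simp only [SectHom.restrict_app]
      exact (congr(($hP) s)).trans (congr(($hQ) s)).symm
  let V : Bool → X.Opens := fun b => cond b C.UP C.UQ
  let g : ∀ b, SectIso M N (V b) := fun b => match b with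
    | true => gP
    | false => gQ
  obtain ⟨G, -⟩ := SectIso.exists_glue (U := ⊤) (V := V) (fun _ => le_top)
    (by rw [← C.cover]; exact sup_le (le_iSup V true) (le_iSup V false)) g fun i j W hi hj s => by
      match i, j with
      | true, true => rfl
      | false, false => rfl
      | true, false => exact congr(($hPQ).app W (le_inf hi hj) s)
      | false, true => exact (congr(($hPQ).app W (le_inf hj hi) s)).symm
  exact ⟨G.toIso⟩

/-- Two invertible modules have the same class exactly when they are isomorphic. -/
theorem clsOf_eq_iff {N : X.Modules} (hM : Scheme.Modules.IsInvertible M)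
    (hN : Scheme.Modules.IsInvertible N) :
    C.clsOf M hM = C.clsOf N hN ↔ Nonempty (M ≅ N) :=
  Bundle.cls_eq_iff.trans ⟨fun ⟨e⟩ => C.exists_sectIso_of_bundleIso hM hN e,
    fun ⟨e⟩ => ⟨C.bundleIso hM hN e⟩⟩

/-- Isomorphic modules have the same class. -/
theorem clsOf_congr {N : X.Modules} (hM : Scheme.Modules.IsInvertible M)
    (hN : Scheme.Modules.IsInvertible N) (e : M ≅ N) : C.clsOf M hM = C.clsOf N hN :=
  (C.clsOf_eq_iff hM hN).2 ⟨e⟩

/-- The structure sheaf has the trivial class. -/
theorem clsOf_unit :
    C.clsOf (modO X) (Scheme.Modules.isInvertible_unit X) = 1 := by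
  rw [← Bundle.cls_trivial]
  refine Bundle.cls_eq_iff.2 ⟨?_⟩
  exact
    { eP := { C.aP.symm.toAddEquiv with map_smul' := fun r (s : Γ(X, C.UP)) => C.aP.injective (by
                change C.aP (C.aP.symm (C.aP r * s)) = C.aP (r * C.aP.symm s)
                simp only [map_mul, RingEquiv.apply_symm_apply, RingEquiv.symm_apply_apply]) }
      eQ := { C.aQ.symm.toAddEquiv with map_smul' := fun r (s : Γ(X, C.UQ)) => C.aQ.injective (by
                change C.aQ (C.aQ.symm (C.aQ r * s)) = C.aQ (r * C.aQ.symm s)
                simp only [map_mul, RingEquiv.apply_symm_apply, RingEquiv.symm_apply_apply]) }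
      eL := { C.aL.symm.toAddEquiv with map_smul' := fun r (s : Γ(X, (C.UP ⊓ C.UQ))) => C.aL.injective (by
                change C.aL (C.aL.symm (C.aL r * s)) = C.aL (r * C.aL.symm s)
                simp only [map_mul, RingEquiv.apply_symm_apply, RingEquiv.symm_apply_apply]) }
      commP := fun (s : Γ(X, C.UP)) => by
        change C.aL.symm (resO inf_le_left s) = algebraMap T.P T.L (C.aP.symm s)
        rw [RingEquiv.symm_apply_eq, C.commP, RingEquiv.apply_symm_apply]
      commQ := fun (s : Γ(X, C.UQ)) => by
        change C.aL.symm (resO inf_le_right s) = ((1 : T.Lˣ) : T.L) * algebraMap T.Q T.L (C.aQ.symm s)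
        rw [Units.val_one, one_mul, RingEquiv.symm_apply_eq, C.commQ, RingEquiv.apply_symm_apply] }

end ChartCover

end Fermat.Agent.RelJac.Sheaf
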