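import Fermat.Agent.RelJac.Bridge.ChartCover

/-!
Every bundle on a two-chart cover comes from an invertible module.
-/

noncomputable section

universe u

open CategoryTheory AlgebraicGeometry TopologicalSpace
open scoped TensorProduct ChangeOfRings

namespace Fermat.Agent.RelJac.Sheaf

/-- `tilde` of an invertible module is invertible. -/
theorem isInvertible_tilde {A : CommRingCat.{u}} (N : ModuleCat.{u} A) [Module.Invertible A N] :
    Scheme.Modules.IsInvertible (tilde N) := by
  obtain ⟨s, hs, hfree⟩ := Module.Invertible.exists_finset_free_localization A N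
  refine IsInvertibleOn.isInvertible fun x _ => ?_
  obtain ⟨f, hf, hx⟩ : ∃ f ∈ s, f ∉ x.asIdeal := by
    by_contra h
    push Not at h
    exact x.isPrime.ne_top (top_le_iff.1 (hs ▸ Ideal.span_le.2 h))
  let φ : A ⟶ CommRingCat.of (Localization.Away f) :=
    CommRingCat.ofHom (algebraMap A (Localization.Away f))
  have : Module.Free (Localization.Away f) (Localization.Away f ⊗[A] N) :=
    have := hfree f hf
    .of_equiv (IsLocalizedModule.isBaseChange (.powers f) (Localization.Away f)
      (LocalizedModule.mkLinearMap (.powers f) N)).equiv.symm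
  obtain ⟨e⟩ := Module.Invertible.free_iff_linearEquiv.1 this
  let α := tilde.adjunction (R := A) |>.comp
    (Scheme.Modules.pullbackPushforwardAdjunction (Spec.map φ))
  let θ := (algebraAdj φ).leftAdjointUniq (schemeAdj φ)
  have hU : x ∈ (Spec.map φ).opensRange := by
    change x ∈ Set.range (PrimeSpectrum.comap (algebraMap A (Localization.Away f)))
    rw [PrimeSpectrum.localization_away_comap_range (Localization.Away f) f]
    exact hx
  obtain ⟨e', -⟩ := semiBC_of_isBaseChange (φ := φ.hom) (rfl : algebraMap A (Localization.Away f) = φ.hom)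
    (TensorProduct.isBaseChange A N (Localization.Away f))
  let eE : (ModuleCat.extendScalars φ.hom).obj N ≅
      ModuleCat.of (Localization.Away f) (Localization.Away f) :=
    LinearEquiv.toModuleIso (X₁ := (ModuleCat.extendScalars φ.hom).obj N)
      (X₂ := ModuleCat.of (Localization.Away f) (Localization.Away f)) (e'.trans e)
  have hinv : Scheme.Modules.IsInvertible ((Scheme.Modules.pullback (Spec.map φ)).obj (tilde N)) :=
    isInvertible_of_iso
      (((tilde.functor (CommRingCat.of (Localization.Away f))).mapIso eE.symm) ≪≫ θ.app N)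
      (isInvertible_of_iso tildeSelf.symm (Scheme.Modules.isInvertible_unit _))
  exact isInvertibleOn_of_pullback (Spec.map φ) le_rfl hinv x hU

variable {X : Scheme.{u}} {U : X.Opens}

/-- The module on `X` with given sections over an affine open subset. -/
def affineModule (hU : IsAffineOpen U) {A M : Type u} [CommRing A] [AddCommGroup M] [Module A M]
    (a : A ≃+* Γ(X, U)) : X.Modules :=
  letI : Module Γ(X, U) M := Module.compHom M a.symm.toRingHom
  (Scheme.Modules.pushforward hU.fromSpec).obj (tilde (ModuleCat.of Γ(X, U) M))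

variable (hU : IsAffineOpen U) {A M : Type u} [CommRing A] [AddCommGroup M] [Module A M]
  (a : A ≃+* Γ(X, U))

theorem isInvertibleOn_affineModule [Module.Invertible A M] :
    IsInvertibleOn (affineModule hU (M := M) a) U := by
  let : Module Γ(X, U) M := Module.compHom M a.symm.toRingHom
  have : Module.Invertible Γ(X, U) M := invertible_of_semilinear a (AddEquiv.refl M) fun r m => by
    change r • m = a.symm (a r) • m
    rw [a.symm_apply_apply]
  refine isInvertibleOn_of_pullback hU.fromSpec hU.opensRange_fromSpec.ge ?_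
  exact isInvertible_of_iso
    ((asIso (Scheme.Modules.pullbackPushforwardAdjunction hU.fromSpec).counit).symm.app
      (tilde (ModuleCat.of Γ(X, U) M)))
    (isInvertible_tilde _)

/-- The sections of `affineModule` over the affine open subset. -/
def affineModuleSecEquiv : ChartSec a (affineModule hU (M := M) a) ≃ₗ[A] M :=
  letI : Module Γ(X, U) M := Module.compHom M a.symm.toRingHom
  let N := tilde (ModuleCat.of Γ(X, U) M)
  let e₁ : Γ(affineModule hU (M := M) a, U) ≃+ Γ(N, ⊤) :=
    (N.presheaf.mapIso (eqToIso hU.fromSpec_preimage_self.symm).op).addCommGroupIsoToAddEquiv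
  let e₂ : M ≃ₗ[Γ(X, U)] Γ(N, ⊤) := (tilde.isoTop (ModuleCat.of Γ(X, U) M)).toLinearEquiv
  { ((chartSecEquiv a _).trans e₁).trans e₂.symm.toAddEquiv with
    map_smul' := fun r x => by
      change e₂.symm (e₁ (chartSecEquiv a _ (r • x))) = r • e₂.symm (e₁ (chartSecEquiv a _ x))
      rw [chartSecEquiv_smul]
      have h₁ : ∀ (r' : Γ(X, U)) (y : Γ(affineModule hU (M := M) a, U)),
          e₁ (r' • y) = r' • e₁ y := fun r' y => by
        change res N hU.fromSpec_preimage_self.ge (hU.fromSpec.app U r' • (show Γ(N, _) from y)) =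
          r' • res N hU.fromSpec_preimage_self.ge (show Γ(N, _) from y)
        rw [res_smul, Scheme.Modules.smul_Spec_def]
        congr 1
        rw [show (⊤ : (Spec Γ(X, U)).Opens).leTop = 𝟙 _ from rfl, op_id,
          CategoryTheory.Functor.map_id, ConcreteCategory.id_apply]
        exact congr($(fromSpec_appLE_top hU) r')
      rw [h₁, map_smul]
      change a.symm (a r) • e₂.symm _ = _
      rw [a.symm_apply_apply] }

namespace ChartCover

variable {R : Type u} [CommRing R] {T : TwoChart R} (C : ChartCover T X)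

/-- Every class on a two-chart cover comes from an invertible module. -/
theorem exists_clsOf_eq (c : Bundle.Cls T) :
    ∃ (M : X.Modules) (hM : Scheme.Modules.IsInvertible M), C.clsOf M hM = c := by
  obtain ⟨B, rfl⟩ := Bundle.exists_cls_eq c
  let FP := affineModule C.affineP (M := B.MP) C.aP
  let FQ := affineModule C.affineQ (M := B.MQ) C.aQ
  have hP : IsInvertibleOn FP C.UP := isInvertibleOn_affineModule C.affineP C.aP
  have hQ : IsInvertibleOn FQ C.UQ := isInvertibleOn_affineModule C.affineQ C.aQ
  let cP : ChartSec C.aL FP ≃ₗ[T.L] B.ML :=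
    ((C.isBaseChange_resP hP).comp_equiv (affineModuleSecEquiv C.affineP C.aP).symm).equiv.symm.trans
      B.baseP.equiv
  let cQ : ChartSec C.aL FQ ≃ₗ[T.L] B.ML :=
    ((C.isBaseChange_resQ hQ).comp_equiv (affineModuleSecEquiv C.affineQ C.aQ).symm).equiv.symm.trans
      B.baseQ.equiv
  have hcP : ∀ m, cP (C.resP FP ((affineModuleSecEquiv C.affineP C.aP).symm m)) = B.ip m := fun m => by
    rw [← one_smul T.L (B.ip m), ← IsBaseChange.equiv_tmul B.baseP]
    refine congr_arg B.baseP.equiv ?_
    exact IsBaseChange.equiv_symm_apply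
      ((C.isBaseChange_resP hP).comp_equiv (affineModuleSecEquiv C.affineP C.aP).symm) m
  have hcQ : ∀ m, cQ (C.resQ FQ ((affineModuleSecEquiv C.affineQ C.aQ).symm m)) = B.iq m := fun m => by
    rw [← one_smul T.L (B.iq m), ← IsBaseChange.equiv_tmul B.baseQ]
    refine congr_arg B.baseQ.equiv ?_
    exact IsBaseChange.equiv_symm_apply
      ((C.isBaseChange_resQ hQ).comp_equiv (affineModuleSecEquiv C.affineQ C.aQ).symm) m
  obtain ⟨t, ht⟩ := SectIso.exists_extend (hP.mono inf_le_left) (hQ.mono inf_le_right) C.affineL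
    (toSecMap C.aL (cP.trans cQ.symm))
  let U : ULift.{u} Bool → X.Opens := fun b => cond b.down C.UP C.UQ
  let F : ULift.{u} Bool → X.Modules := fun b => cond b.down FP FQ
  let θ : ∀ i j, SectHom (F i) (F j) (U i ⊓ U j) := fun i j => match i, j with
    | ⟨true⟩, ⟨true⟩ => SectHom.id _ _
    | ⟨false⟩, ⟨false⟩ => SectHom.id _ _
    | ⟨true⟩, ⟨false⟩ => t.hom
    | ⟨false⟩, ⟨true⟩ => t.inv.restrict (inf_comm _ _).le
  let D : GlueData X :=
    { ι := ULift.{u} Bool
      U := U
      F := F
      θ := θ
      θ_self := fun i W hW s => by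
        match i with
        | ⟨true⟩ => rfl
        | ⟨false⟩ => rfl
      θ_θ := fun i j k W hij hjk hik s => by
        match i, j, k with
        | ⟨true⟩, ⟨true⟩, ⟨true⟩ => rfl
        | ⟨true⟩, ⟨true⟩, ⟨false⟩ => rfl
        | ⟨true⟩, ⟨false⟩, ⟨true⟩ => exact t.hom_inv W hij s
        | ⟨true⟩, ⟨false⟩, ⟨false⟩ => rfl
        | ⟨false⟩, ⟨true⟩, ⟨true⟩ => rfl
        | ⟨false⟩, ⟨true⟩, ⟨false⟩ => exact t.inv_hom W (hij.trans (inf_comm _ _).le) s
        | ⟨false⟩, ⟨false⟩, ⟨true⟩ => rfl
        | ⟨false⟩, ⟨false⟩, ⟨false⟩ => rfl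
      cover := eq_top_iff.2 (C.cover ▸ sup_le (le_iSup U ⟨true⟩) (le_iSup U ⟨false⟩)) }
  have hM : Scheme.Modules.IsInvertible D.glue := IsInvertibleOn.isInvertible fun x hx => by
    rw [← C.cover] at hx
    rcases hx with hx | hx
    · exact hP.of_sectIso (D.glueIso ⟨true⟩) x hx
    · exact hQ.of_sectIso (D.glueIso ⟨false⟩) x hx
  refine ⟨D.glue, hM, Bundle.cls_eq_iff.2 ⟨?_⟩⟩
  let gP : SectIso D.glue FP C.UP := D.glueIso ⟨true⟩
  let gQ : SectIso D.glue FQ C.UQ := D.glueIso ⟨false⟩
  exact
    { eP := (ofSecMap C.aP (gP.linearEquiv C.UP le_rfl)).trans (affineModuleSecEquiv C.affineP C.aP)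
      eQ := (ofSecMap C.aQ (gQ.linearEquiv C.UQ le_rfl)).trans (affineModuleSecEquiv C.affineQ C.aQ)
      eL := (ofSecMap C.aL (gP.linearEquiv (C.UP ⊓ C.UQ) inf_le_left)).trans cP
      commP := fun s => by
        refine Eq.trans (congr_arg cP ?_) (hcP _)
        rw [LinearEquiv.trans_apply, LinearEquiv.symm_apply_apply]
        exact gP.hom.natural (inf_le_left : C.UP ⊓ C.UQ ≤ C.UP) le_rfl _
      commQ := fun s => by
        refine Eq.trans ?_ (hcQ _)
        change cP (ofSecMap C.aL (gP.linearEquiv (C.UP ⊓ C.UQ) inf_le_left) _) =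
          cQ (C.resQ FQ ((affineModuleSecEquiv C.affineQ C.aQ).symm
            ((affineModuleSecEquiv C.affineQ C.aQ) _)))
        rw [LinearEquiv.symm_apply_apply, ← cP.apply_symm_apply (cQ _)]
        refine congr_arg cP ?_
        have h₁ := ht (gP.hom.app (C.UP ⊓ C.UQ) inf_le_left
          (res D.glue inf_le_right (chartSecEquiv C.aQ _ s)))
        have h₂ := D.glueIso_θ ⟨true⟩ ⟨false⟩ (C.UP ⊓ C.UQ) inf_le_left inf_le_right
          (res D.glue inf_le_right (chartSecEquiv C.aQ _ s))
        have h₃ := gQ.hom.natural (inf_le_right : C.UP ⊓ C.UQ ≤ C.UQ) le_rfl (chartSecEquiv C.aQ _ s)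
        apply (cP.trans cQ.symm).injective
        refine (h₁.symm.trans (h₂.trans h₃)).trans ?_
        change C.resQ FQ _ = cQ.symm (cP (cP.symm (cQ _)))
        rw [LinearEquiv.apply_symm_apply, LinearEquiv.symm_apply_apply]
        rfl }

end ChartCover

end Fermat.Agent.RelJac.Sheaf
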