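import Fermat.Agent.RelJac.Pullback
import Fermat.Agent.RelJac.Bridge.ChartCover

/-!
Compatibility of the bundle of an invertible module with inverse images.
-/

noncomputable section

universe u

open CategoryTheory AlgebraicGeometry TopologicalSpace
open scoped TensorProduct

namespace Fermat.Agent.RelJac.Sheaf

variable {X X' : Scheme.{u}} {A A' : Type u} [CommRing A] [CommRing A'] [Algebra A A'] {U : X.Opens}
  {U' : X'.Opens}

/-- Sections of an inverse image over an affine open subset are the base change of the sections. -/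
theorem exists_chartSec_equiv (g : X' ⟶ X) (a : A ≃+* Γ(X, U)) (a' : A' ≃+* Γ(X', U'))
    (h : U' ≤ g ⁻¹ᵁ U) (hcomm : ∀ x, g.appLE U U' h (a x) = a' (algebraMap A A' x))
    {M : X.Modules} (hM : IsInvertibleOn M U) (hU : IsAffineOpen U) (hU' : IsAffineOpen U') :
    ∃ e : A' ⊗[A] ChartSec a M ≃ₗ[A'] ChartSec a' ((Scheme.Modules.pullback g).obj M),
      ∀ s, chartSecEquiv a' _ (e (1 ⊗ₜ s)) = sig g M h (chartSecEquiv a M s) := by
  let f : ChartSec a M →+ ChartSec a' ((Scheme.Modules.pullback g).obj M) :=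
    ((chartSecEquiv a' _).symm.toAddMonoidHom.comp (sig g M h)).comp
      (chartSecEquiv a M).toAddMonoidHom
  have hf : SemiBC (algebraMap A A') f :=
    (semiBC_sig g hM hU hU' h).transfer a.symm a'.symm (chartSecEquiv a M).symm
      (chartSecEquiv a' _).symm
      (fun x => by
        obtain ⟨x, rfl⟩ := a.surjective x
        rw [a.symm_apply_apply, RingEquiv.eq_symm_apply]
        exact (hcomm x).symm)
      (chartSecEquiv_symm_smul a M) (chartSecEquiv_symm_smul a' _) fun s => rfl
  let : Module A (ChartSec a' ((Scheme.Modules.pullback g).obj M)) :=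
    Module.compHom _ (algebraMap A A')
  have : IsScalarTower A A' (ChartSec a' ((Scheme.Modules.pullback g).obj M)) :=
    IsScalarTower.of_algebraMap_smul fun _ _ => rfl
  have hbc := hf.isBaseChange rfl
    ({ f with map_smul' := fun r s => hf.map_smul r s } :
      ChartSec a M →ₗ[A] ChartSec a' ((Scheme.Modules.pullback g).obj M)) fun _ => rfl
  exact ⟨hbc.equiv, fun s => by rw [IsBaseChange.equiv_tmul, one_smul]; rfl⟩

namespace ChartCover

variable {R R' : Type u} [CommRing R] [CommRing R'] {T : TwoChart R} {T' : TwoChart R'}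
  [T.Over T'] (C : ChartCover T X) (C' : ChartCover T' X')

/-- The class of an inverse image is the pullback of the class. -/
theorem clsOf_pullback (g : X' ⟶ X) (hP : C'.UP ≤ g ⁻¹ᵁ C.UP) (hQ : C'.UQ ≤ g ⁻¹ᵁ C.UQ)
    (hcP : ∀ p, g.appLE C.UP C'.UP hP (C.aP p) = C'.aP (algebraMap T.P T'.P p))
    (hcQ : ∀ q, g.appLE C.UQ C'.UQ hQ (C.aQ q) = C'.aQ (algebraMap T.Q T'.Q q))
    (hcL : ∀ l, g.appLE (C.UP ⊓ C.UQ) (C'.UP ⊓ C'.UQ) (inf_le_inf hP hQ) (C.aL l) =
      C'.aL (algebraMap T.L T'.L l))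
    {M : X.Modules} (hM : Scheme.Modules.IsInvertible M) :
    C'.clsOf ((Scheme.Modules.pullback g).obj M) (hM.pullback g) =
      Bundle.clsMap (C.clsOf M hM) := by
  obtain ⟨eP, heP⟩ := exists_chartSec_equiv g C.aP C'.aP hP hcP
    (isInvertibleOn_of_isInvertible hM _) C.affineP C'.affineP
  obtain ⟨eQ, heQ⟩ := exists_chartSec_equiv g C.aQ C'.aQ hQ hcQ
    (isInvertibleOn_of_isInvertible hM _) C.affineQ C'.affineQ
  obtain ⟨eL, heL⟩ := exists_chartSec_equiv g C.aL C'.aL (inf_le_inf hP hQ) hcL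
    (isInvertibleOn_of_isInvertible hM _) C.affineL C'.affineL
  refine ((Bundle.clsMap_cls _).trans (Bundle.cls_eq_iff.2 ⟨Bundle.Iso.ofPullback
    (B := C.bundleOf M hM) (C := C'.bundleOf _ (hM.pullback g)) eP eQ eL (fun m => ?_)
    fun m => ?_⟩)).symm
  · apply (chartSecEquiv C'.aL _).injective
    change chartSecEquiv C'.aL _ (eL (1 ⊗ₜ C.resP M m)) = chartSecEquiv C'.aL _ (C'.resP _ (eP (1 ⊗ₜ m)))
    rw [heL, resP_apply, resP_apply, heP]
    exact (sig_res g M inf_le_left (inf_le_inf hP hQ) _).trans (res_sig g M hP inf_le_left _).symm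
  · apply (chartSecEquiv C'.aL _).injective
    change chartSecEquiv C'.aL _ (eL (1 ⊗ₜ C.resQ M m)) = chartSecEquiv C'.aL _ (C'.resQ _ (eQ (1 ⊗ₜ m)))
    rw [heL, resQ_apply, resQ_apply, heQ]
    exact (sig_res g M inf_le_right (inf_le_inf hP hQ) _).trans (res_sig g M hQ inf_le_right _).symm

end ChartCover

end Fermat.Agent.RelJac.Sheaf
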