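import Fermat.Agent.RelJac.Bridge.BaseOpen
import Fermat.Agent.RelJac.Bridge.Normalized

/-!
Rigidified line bundles on a relative curve glue along open covers of the base.
-/

noncomputable section

universe u

open CategoryTheory CategoryTheory.Limits AlgebraicGeometry TopologicalSpace NeronModelInfra
open AlgebraicGeometry.RelPicard

namespace Fermat.Agent.RelJac

open Sheaf (modO SectIso RigOn IsInvertibleOn)

section Pushforward

variable {X Y : Scheme.{u}} (j : Y ⟶ X) [IsOpenImmersion j] (N : Y.Modules)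

/-- The inverse image of a direct image along an open immersion. -/
def pullbackPushforwardIso :
    (Scheme.Modules.pullback j).obj ((Scheme.Modules.pushforward j).obj N) ≅ N :=
  ((Scheme.Modules.restrictFunctorIsoPullback j).app _).symm ≪≫
    (asIso (Scheme.Modules.restrictAdjunction j).counit).app N

end Pushforward

theorem overlap_over {k : Type u} [CommRing k] {T T₁ T₂ : Scheme.{u}}
    {t : T ⟶ Spec (CommRingCat.of k)} {t₁ : T₁ ⟶ Spec (CommRingCat.of k)}
    {t₂ : T₂ ⟶ Spec (CommRingCat.of k)} (g₁ : SchemeHomOver t₁ t) (g₂ : SchemeHomOver t₂ t) :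
    pullback.snd g₁.1 g₂.1 ≫ t₂ = pullback.fst g₁.1 g₂.1 ≫ t₁ :=
  (congr_arg (pullback.snd g₁.1 g₂.1 ≫ ·) g₂.2.symm).trans
    (pullback.condition_assoc t).symm |>.trans (congr_arg (pullback.fst g₁.1 g₂.1 ≫ ·) g₁.2)

variable {k : Type u} [Field k] [IsAlgClosed k] {C : Scheme.{u}}
  {c : C ⟶ Spec (CommRingCat.of k)} {ε : SchemeHomOver (𝟙 (Spec (CommRingCat.of k))) c}

/-- The functions on the preimage of an affine open subset come from it. -/
theorem CurveModel.hπ (D : CurveModel c ε) {T : Scheme.{u}} (t : T ⟶ Spec (CommRingCat.of k))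
    (V : T.Opens) (hV : IsAffineOpen V) : Function.Surjective ((pullback.snd c t).app V) :=
  D.snd_app_surjective hasConstantSections t V hV

variable (D : CurveModel c ε) {T : Scheme.{u}} {t : T ⟶ Spec (CommRingCat.of k)}

include D

/-- Rigidified line bundles that are isomorphic on an open cover of the base are isomorphic. -/
theorem iso_of_openCover {ι : Type*} {Y : ι → Scheme.{u}} {tY : ∀ i, Y i ⟶ Spec (CommRingCat.of k)}
    (g : ∀ i, SchemeHomOver (tY i) t) [∀ i, IsOpenImmersion (g i).1]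
    (hg : ⨆ i, (g i).1.opensRange = ⊤) {M N : RigidifiedLineBundle c ε t}
    (h : ∀ i, Nonempty ((M.pullbackAlong (g i)).L ≅ (N.pullbackAlong (g i)).L)) :
    Nonempty (M.L ≅ N.L) := by
  refine Sheaf.nonempty_iso_of_local (π := pullback.snd c t) (σ := rigSection c t ε)
    (hσ := rigSection_snd c ε) (fun V hV => D.hπ t V hV) M.isInvertible
    (SectIso.ofIso M.rigidified.some ⊤) (SectIso.ofIso N.rigidified.some ⊤)
    (fun i => (g i).1.opensRange) hg fun i =>
      SectIso.ofPullback (baseChangeSnd c (g i)) (opensRange_baseChangeSnd c (g i)).ge (h i).some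

/-- Rigidified line bundles on the members of an open cover of the base, isomorphic on the
overlaps, glue. -/
theorem exists_of_openCover {ι : Type u} {Y : ι → Scheme.{u}}
    {tY : ∀ i, Y i ⟶ Spec (CommRingCat.of k)} (g : ∀ i, SchemeHomOver (tY i) t)
    [∀ i, IsOpenImmersion (g i).1] (hg : ⨆ i, (g i).1.opensRange = ⊤)
    (N : ∀ i, RigidifiedLineBundle c ε (tY i))
    (h : ∀ i j, Nonempty (((N i).pullbackAlong (t' := pullback.fst (g i).1 (g j).1 ≫ tY i)
        ⟨pullback.fst (g i).1 (g j).1, rfl⟩).L ≅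
      ((N j).pullbackAlong ⟨pullback.snd (g i).1 (g j).1,
        overlap_over (g i) (g j)⟩).L)) :
    ∃ M : RigidifiedLineBundle c ε t, ∀ i, Nonempty ((M.pullbackAlong (g i)).L ≅ (N i).L) := by
  let j := fun i => baseChangeSnd c (g i)
  let V := fun i => (g i).1.opensRange
  let F := fun i => (Scheme.Modules.pushforward (j i)).obj (N i).L
  let eF : ∀ i, (Scheme.Modules.pullback (j i)).obj (F i) ≅ (N i).L := fun i =>
    pullbackPushforwardIso (j i) (N i).L
  have hF : ∀ i, IsInvertibleOn (F i) (pullback.snd c t ⁻¹ᵁ V i) := fun i =>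
    Sheaf.isInvertibleOn_of_pullback (j i) (opensRange_baseChangeSnd c (g i)).ge
      (Sheaf.isInvertible_of_iso (eF i).symm (N i).isInvertible)
  let r : ∀ i, RigOn (rigSection c t ε) (F i) (V i) := fun i =>
    SectIso.ofPullback (g i).1 le_rfl
      ((Scheme.Modules.pullbackComp _ _).app (F i) ≪≫
        (Scheme.Modules.pullbackCongr (rigSection_baseChangeSnd c ε (g i)).symm).app (F i) ≪≫
        ((Scheme.Modules.pullbackComp _ _).app (F i)).symm ≪≫
        (Scheme.Modules.pullback _).mapIso (eF i) ≪≫ (N i).rigidified.some ≪≫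
        (Scheme.Modules.pullbackUnitIso (g i).1).symm)
  obtain ⟨M, hM, ⟨R⟩, hMF⟩ := Sheaf.exists_glued (π := pullback.snd c t) (σ := rigSection c t ε)
    (hσ := rigSection_snd c ε) (fun V hV => D.hπ t V hV) V hg F hF r fun i l => by
      let a : SchemeHomOver (pullback.fst (g i).1 (g l).1 ≫ tY i) (tY i) :=
        ⟨pullback.fst (g i).1 (g l).1, rfl⟩
      let b : SchemeHomOver (pullback.fst (g i).1 (g l).1 ≫ tY i) (tY l) :=
        ⟨pullback.snd (g i).1 (g l).1, overlap_over (g i) (g l)⟩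
      have hab : postComp (g i) a = postComp (g l) b := Subtype.ext pullback.condition
      have : IsOpenImmersion (postComp (g i) a).1 :=
        inferInstanceAs (IsOpenImmersion (pullback.fst (g i).1 (g l).1 ≫ (g i).1))
      have hr : pullback.snd c t ⁻¹ᵁ (V i ⊓ V l) ≤
          (baseChangeSnd c (postComp (g i) a)).opensRange := by
        rw [opensRange_baseChangeSnd]
        refine (pullback.snd c t).preimage_mono fun x hx => ?_
        exact (IsOpenImmersion.range_pullback_to_base_of_left (g i).1 (g l).1).ge hx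
      exact ⟨SectIso.ofPullback (baseChangeSnd c (postComp (g i) a)) hr
        ((Scheme.Modules.pullbackCongr (baseChangeSnd_comp c (g i) a)).symm.app (F i) ≪≫
          ((Scheme.Modules.pullbackComp _ _).app (F i)).symm ≪≫
          (Scheme.Modules.pullback _).mapIso (eF i) ≪≫ (h i l).some ≪≫
          (Scheme.Modules.pullback _).mapIso (eF l).symm ≪≫
          (Scheme.Modules.pullbackComp _ _).app (F l) ≪≫
          (Scheme.Modules.pullbackCongr ((baseChangeSnd_comp c (g l) b).trans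
            (congr_arg (baseChangeSnd c) hab.symm))).app (F l))⟩
  refine ⟨⟨M, hM, ⟨R⟩⟩, fun i => ?_⟩
  obtain ⟨e⟩ := (hMF i).some.nonempty_pullback_iso (j i) fun x hx => by
    have hx' : x ∈ (j i).opensRange := hx
    rwa [opensRange_baseChangeSnd] at hx'
  exact ⟨e ≪≫ eF i⟩

/-- Separatedness for open covers of the base. -/
theorem iso_of_cover (M N : RigidifiedLineBundle c ε t) (𝒰 : T.OpenCover)
    (h : ∀ i, Nonempty ((M.pullbackAlong (t' := 𝒰.f i ≫ t) ⟨𝒰.f i, rfl⟩).L ≅
      (N.pullbackAlong (t' := 𝒰.f i ≫ t) ⟨𝒰.f i, rfl⟩).L)) :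
    Nonempty (M.L ≅ N.L) :=
  have : ∀ i, IsOpenImmersion (⟨𝒰.f i, rfl⟩ : SchemeHomOver (𝒰.f i ≫ t) t).1 :=
    fun i => inferInstanceAs (IsOpenImmersion (𝒰.f i))
  iso_of_openCover D (fun i => (⟨𝒰.f i, rfl⟩ : SchemeHomOver (𝒰.f i ≫ t) t))
    𝒰.iSup_opensRange h

/-- Effectivity for open covers of the base. -/
theorem exists_of_cover (𝒰 : Scheme.OpenCover.{u} T)
    (M : ∀ i, RigidifiedLineBundle c ε (𝒰.f i ≫ t))
    (h : ∀ i j, Nonempty (((M i).pullbackAlong (t' := pullback.fst (𝒰.f i) (𝒰.f j) ≫ 𝒰.f i ≫ t)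
        ⟨pullback.fst (𝒰.f i) (𝒰.f j), rfl⟩).L ≅
      ((M j).pullbackAlong (t' := pullback.fst (𝒰.f i) (𝒰.f j) ≫ 𝒰.f i ≫ t)
        ⟨pullback.snd (𝒰.f i) (𝒰.f j), (pullback.condition_assoc t).symm⟩).L)) :
    ∃ N : RigidifiedLineBundle c ε t,
      ∀ i, Nonempty ((N.pullbackAlong (t' := 𝒰.f i ≫ t) ⟨𝒰.f i, rfl⟩).L ≅ (M i).L) :=
  have : ∀ i, IsOpenImmersion (⟨𝒰.f i, rfl⟩ : SchemeHomOver (𝒰.f i ≫ t) t).1 :=
    fun i => inferInstanceAs (IsOpenImmersion (𝒰.f i))
  exists_of_openCover D (fun i => (⟨𝒰.f i, rfl⟩ : SchemeHomOver (𝒰.f i ≫ t) t))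
    𝒰.iSup_opensRange M h

end Fermat.Agent.RelJac
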