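import Fermat.Agent.RelJac.Bridge.Local

/-!
Morphisms over an open subset from morphisms of inverse images along an open immersion, and modules
that are invertible over an open subset.
-/

noncomputable section

universe u

open CategoryTheory AlgebraicGeometry TopologicalSpace

namespace Fermat.Agent.RelJac.Sheaf

variable {X Y : Scheme.{u}} {M N : X.Modules} {U : X.Opens}

/-- The structure sheaf as a module. -/
abbrev modO (X : Scheme.{u}) : X.Modules := SheafOfModules.unit X.ringCatSheaf

/-- Sections over an open subset of the image of an open immersion. -/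
def immSecEquiv (j : Y ⟶ X) [IsOpenImmersion j] (M : X.Modules) (W : X.Opens)
    (hW : W ≤ j.opensRange) : Γ(M, W) ≃+ Γ((Scheme.Modules.pullback j).obj M, j ⁻¹ᵁ W) :=
  AddEquiv.ofBijective (sig j M (le_refl (j ⁻¹ᵁ W))) (sig_bijective j M hW rfl)

/-- The comparison of sections along an open immersion is the pullback of sections. -/
theorem immSecEquiv_apply (j : Y ⟶ X) [IsOpenImmersion j] (M : X.Modules) (W : X.Opens)
    (hW : W ≤ j.opensRange) (s : Γ(M, W)) :
    immSecEquiv j M W hW s = sig j M (le_refl (j ⁻¹ᵁ W)) s := rfl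

/-- A morphism of inverse images along an open immersion gives a morphism over its image. -/
def SectHom.ofPullback (j : Y ⟶ X) [IsOpenImmersion j] (hU : U ≤ j.opensRange)
    (φ : (Scheme.Modules.pullback j).obj M ⟶ (Scheme.Modules.pullback j).obj N) :
    SectHom M N U where
  app W hW :=
    { toFun := fun s => (immSecEquiv j N W (hW.trans hU)).symm
        (φ.app (j ⁻¹ᵁ W) (immSecEquiv j M W (hW.trans hU) s))
      map_add' := fun s t => by simp
      map_smul' := fun r s => by
        rw [RingHom.id_apply, AddEquiv.symm_apply_eq, immSecEquiv_apply, immSecEquiv_apply,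
          sig_smul, sig_smul, Scheme.Modules.Hom.app_smul]
        congr 1
        exact ((immSecEquiv j N W (hW.trans hU)).apply_symm_apply
          (φ.app (j ⁻¹ᵁ W) (immSecEquiv j M W (hW.trans hU) s))).symm }
  natural {V W} h hW s := by
    change (immSecEquiv j N V _).symm _ = res N h ((immSecEquiv j N W _).symm _)
    rw [AddEquiv.symm_apply_eq, immSecEquiv_apply, immSecEquiv_apply, sig_res, sig_res,
      ← res_sig j M (le_refl (j ⁻¹ᵁ W)) (j.preimage_mono h) s,
      ← res_sig j N (le_refl (j ⁻¹ᵁ W)) (j.preimage_mono h)]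
    refine (congr($(φ.val.naturality (homOfLE (j.preimage_mono h)).op).hom
      (sig j M (le_refl (j ⁻¹ᵁ W)) s))).trans ?_
    exact congr_arg (res _ _) ((immSecEquiv j N W (hW.trans hU)).apply_symm_apply _).symm

/-- The morphism obtained from inverse images commutes with pullback of sections. -/
theorem SectHom.sig_ofPullback (j : Y ⟶ X) [IsOpenImmersion j] (hU : U ≤ j.opensRange)
    (φ : (Scheme.Modules.pullback j).obj M ⟶ (Scheme.Modules.pullback j).obj N)
    {W : X.Opens} (hW : W ≤ U) {W' : Y.Opens} (h : W' ≤ j ⁻¹ᵁ W) (s : Γ(M, W)) :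
    sig j N h ((SectHom.ofPullback j hU φ).app W hW s) = φ.app W' (sig j M h s) := by
  rw [← res_sig j N (le_refl _) h, ← res_sig j M (le_refl _) h,
    ← immSecEquiv_apply j N W (hW.trans hU), ← immSecEquiv_apply j M W (hW.trans hU)]
  refine (congr_arg (res _ h) ((immSecEquiv j N W (hW.trans hU)).apply_symm_apply _)).trans ?_
  exact (congr($(φ.val.naturality (homOfLE h).op).hom (immSecEquiv j M W (hW.trans hU) s))).symm

/-- An isomorphism of inverse images along an open immersion gives an isomorphism over its image. -/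
def SectIso.ofPullback (j : Y ⟶ X) [IsOpenImmersion j] (hU : U ≤ j.opensRange)
    (e : (Scheme.Modules.pullback j).obj M ≅ (Scheme.Modules.pullback j).obj N) :
    SectIso M N U where
  hom := .ofPullback j hU e.hom
  inv := .ofPullback j hU e.inv
  hom_inv W hW s := by
    apply (immSecEquiv j M W (hW.trans hU)).injective
    rw [immSecEquiv_apply, immSecEquiv_apply, SectHom.sig_ofPullback, SectHom.sig_ofPullback,
      ← ConcreteCategory.comp_apply, ← Scheme.Modules.Hom.comp_app, e.hom_inv_id]
    rfl
  inv_hom W hW s := by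
    apply (immSecEquiv j N W (hW.trans hU)).injective
    rw [immSecEquiv_apply, immSecEquiv_apply, SectHom.sig_ofPullback, SectHom.sig_ofPullback,
      ← ConcreteCategory.comp_apply, ← Scheme.Modules.Hom.comp_app, e.inv_hom_id]
    rfl

/-- `M` is locally trivial at the points of `U`. -/
def IsInvertibleOn (M : X.Modules) (U : X.Opens) : Prop :=
  ∀ x : X, x ∈ U → ∃ V : X.Opens, x ∈ V ∧ Nonempty (SectIso M (modO X) V)

/-- An invertible module is invertible over every open subset. -/
theorem isInvertibleOn_of_isInvertible (hM : Scheme.Modules.IsInvertible M) (U : X.Opens) :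
    IsInvertibleOn M U := fun x _ => exists_sectIso_unit hM x

/-- Invertibility over an open subset passes to smaller open subsets. -/
theorem IsInvertibleOn.mono (hM : IsInvertibleOn M U) {V : X.Opens} (h : V ≤ U) :
    IsInvertibleOn M V := fun x hx => hM x (h hx)

/-- Invertibility over an open subset is invariant under isomorphism over it. -/
theorem IsInvertibleOn.of_sectIso (hN : IsInvertibleOn N U) (e : SectIso M N U) :
    IsInvertibleOn M U := fun x hx => by
  obtain ⟨V, hV, ⟨i⟩⟩ := hN x hx
  exact ⟨U ⊓ V, ⟨hx, hV⟩, ⟨(e.restrict inf_le_left).trans (i.restrict inf_le_right)⟩⟩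

/-- A module invertible over the whole space is invertible. -/
theorem IsInvertibleOn.isInvertible (hM : IsInvertibleOn M ⊤) : Scheme.Modules.IsInvertible M :=
  isInvertible_of_sectIso fun x => hM x trivial

/-- An inverse image landing in the open subset of invertibility is invertible. -/
theorem isInvertible_pullback_of_on (hM : IsInvertibleOn M U) (f : Y ⟶ X)
    (hf : ∀ y : Y, f.base y ∈ U) :
    Scheme.Modules.IsInvertible ((Scheme.Modules.pullback f).obj M) := by
  refine ⟨fun y => ?_⟩
  obtain ⟨V, hV, ⟨i⟩⟩ := hM (f.base y) (hf y)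
  refine ⟨f ⁻¹ᵁ V, hV, ⟨?_⟩⟩
  exact (Scheme.Modules.pullbackComp _ _).app M ≪≫
    (Scheme.Modules.pullbackCongr (morphismRestrict_ι f V).symm).app M ≪≫
    ((Scheme.Modules.pullbackComp _ _).app M).symm ≪≫
    (Scheme.Modules.pullback (f ∣_ V)).mapIso
      (((Scheme.Modules.restrictFunctorIsoPullback V.ι).app M).symm ≪≫ i.toRestrict ≪≫
        Scheme.Modules.restrictUnitIso V.ι) ≪≫
    Scheme.Modules.pullbackUnitIso (f ∣_ V)

/-- Invertibility may be checked after inverse image along an open immersion. -/
theorem isInvertibleOn_of_pullback (j : Y ⟶ X) [IsOpenImmersion j] (hU : U ≤ j.opensRange)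
    (h : Scheme.Modules.IsInvertible ((Scheme.Modules.pullback j).obj M)) :
    IsInvertibleOn M U := fun x hx => by
  obtain ⟨y, rfl⟩ := hU hx
  obtain ⟨V, hV, ⟨i⟩⟩ := h.exists_trivialization y
  refine ⟨(V.ι ≫ j).opensRange, ⟨⟨y, hV⟩, rfl⟩, ⟨SectIso.ofPullback (V.ι ≫ j) le_rfl ?_⟩⟩
  exact ((Scheme.Modules.pullbackComp V.ι j).app M).symm ≪≫ i ≪≫
    (Scheme.Modules.pullbackUnitIso (V.ι ≫ j)).symm

end Fermat.Agent.RelJac.Sheaf
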