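import Fermat.Prelude.Def_AlgebraicGeometry_RelativePicardFunctor
import Fermat.Agent.RelJac.SheafGlue
import Fermat.Agent.RelJac.Bridge.Affine

/-!
Local isomorphisms, invertible modules and quasi-coherence.
-/

noncomputable section

universe u

open CategoryTheory AlgebraicGeometry TopologicalSpace

namespace Fermat.Agent.RelJac.Sheaf

variable {X : Scheme.{u}} {M N : X.Modules} {U : X.Opens}

theorem image_preimage_ι (U : X.Opens) {W : X.Opens} (hW : W ≤ U) : U.ι ''ᵁ (U.ι ⁻¹ᵁ W) = W := by
  rw [Scheme.Hom.image_preimage_eq_opensRange_inf, Scheme.Opens.opensRange_ι, inf_eq_right.2 hW]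

/-- The maps on sections of a morphism of restrictions, with sources in `X`. -/
def appImage (φ : M.restrict U.ι ⟶ N.restrict U.ι) (W : U.toScheme.Opens) :
    Γ(M, U.ι ''ᵁ W) →+ Γ(N, U.ι ''ᵁ W) :=
  (φ.app W).hom

theorem appImage_smul (φ : M.restrict U.ι ⟶ N.restrict U.ι) (W : U.toScheme.Opens)
    (r : Γ(X, U.ι ''ᵁ W)) (s : Γ(M, U.ι ''ᵁ W)) :
    appImage φ W (r • s) = r • appImage φ W s := by
  obtain ⟨r, rfl⟩ : ∃ r', (U.ι.appIso W).inv r' = r :=
    ⟨(U.ι.appIso W).hom r, Iso.hom_inv_id_apply _ _⟩
  exact φ.app_smul r (show Γ(M.restrict U.ι, W) from s)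

theorem appImage_res (φ : M.restrict U.ι ⟶ N.restrict U.ι) {V W : U.toScheme.Opens} (h : V ≤ W)
    (s : Γ(M, U.ι ''ᵁ W)) :
    appImage φ V (res M (U.ι.image_mono h) s) = res N (U.ι.image_mono h) (appImage φ W s) :=
  congr($(φ.val.naturality (homOfLE h).op).hom (show Γ(M.restrict U.ι, W) from s))

/-- A morphism of restrictions gives a morphism over the open subset. -/
def SectHom.ofRestrict (φ : M.restrict U.ι ⟶ N.restrict U.ι) : SectHom M N U where
  app W hW :=
    { toFun := fun s => res N (image_preimage_ι U hW).ge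
        (appImage φ (U.ι ⁻¹ᵁ W) (res M (image_preimage_ι U hW).le s))
      map_add' := fun s t => by simp [res]
      map_smul' := fun r s => by
        rw [res_smul, appImage_smul, res_smul, resO_resO, resO_self, RingHom.id_apply] }
  natural {V W} h hW s := by
    change res N _ (appImage φ _ _) = res N h (res N _ (appImage φ _ _))
    rw [res_res, res_res N h, ← res_res M (U.ι.image_mono (U.ι.preimage_mono h))
      (image_preimage_ι U hW).le, appImage_res φ (U.ι.preimage_mono h), res_res]

/-- A morphism over an open subset gives a morphism of restrictions. -/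
def SectHom.toRestrict (f : SectHom M N U) : M.restrict U.ι ⟶ N.restrict U.ι :=
  ⟨PresheafOfModules.homMk
    { app := fun W => AddCommGrpCat.ofHom
        (f.app (U.ι ''ᵁ W.unop) (U.ι_image_le W.unop)).toAddMonoidHom
      naturality := fun {V W} g => by
        refine AddCommGrpCat.ext fun s => ?_
        exact f.natural (U.ι.image_mono (leOfHom g.unop)) (U.ι_image_le V.unop) s }
    fun W r s => (f.app (U.ι ''ᵁ W.unop) (U.ι_image_le W.unop)).map_smul
      ((U.ι.appIso W.unop).inv r) s⟩

theorem SectHom.ofRestrict_comp (φ : M.restrict U.ι ⟶ N.restrict U.ι) {K : X.Modules}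
    (ψ : N.restrict U.ι ⟶ K.restrict U.ι) :
    SectHom.ofRestrict (φ ≫ ψ) = (SectHom.ofRestrict φ).comp (SectHom.ofRestrict ψ) := by
  refine SectHom.hext fun W hW s => ?_
  change res K _ (appImage ψ _ (appImage φ _ _)) =
    res K _ (appImage ψ _ (res N _ (res N _ (appImage φ _ _))))
  rw [res_res, res_self]

theorem SectHom.ofRestrict_id (M : X.Modules) (U : X.Opens) :
    SectHom.ofRestrict (𝟙 (M.restrict U.ι)) = SectHom.id M U := by
  refine SectHom.hext fun W hW s => ?_
  change res M _ (res M _ s) = s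
  rw [res_res, res_self]

/-- An isomorphism of restrictions gives an isomorphism over the open subset. -/
def SectIso.ofRestrict (e : M.restrict U.ι ≅ N.restrict U.ι) : SectIso M N U where
  hom := .ofRestrict e.hom
  inv := .ofRestrict e.inv
  hom_inv W hW s := by
    rw [← SectHom.comp_app, ← SectHom.ofRestrict_comp, e.hom_inv_id, SectHom.ofRestrict_id]
    rfl
  inv_hom W hW s := by
    rw [← SectHom.comp_app, ← SectHom.ofRestrict_comp, e.inv_hom_id, SectHom.ofRestrict_id]
    rfl

/-- An isomorphism over an open subset gives an isomorphism of restrictions. -/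
def SectIso.toRestrict (e : SectIso M N U) : M.restrict U.ι ≅ N.restrict U.ι where
  hom := e.hom.toRestrict
  inv := e.inv.toRestrict
  hom_inv_id := Scheme.Modules.hom_ext _ _ fun W => AddCommGrpCat.ext fun s =>
    e.hom_inv _ (U.ι_image_le W) s
  inv_hom_id := Scheme.Modules.hom_ext _ _ fun W => AddCommGrpCat.ext fun s =>
    e.inv_hom _ (U.ι_image_le W) s

/-- An invertible module is locally trivial. -/
theorem exists_sectIso_unit (hM : Scheme.Modules.IsInvertible M) (x : X) :
    ∃ U : X.Opens, x ∈ U ∧ Nonempty (SectIso M (SheafOfModules.unit X.ringCatSheaf) U) := by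
  obtain ⟨U, hx, ⟨e⟩⟩ := hM.exists_trivialization x
  exact ⟨U, hx, ⟨SectIso.ofRestrict ((Scheme.Modules.restrictFunctorIsoPullback U.ι).app M ≪≫ e ≪≫
    (Scheme.Modules.restrictUnitIso U.ι).symm)⟩⟩

/-- A locally trivial module is invertible. -/
theorem isInvertible_of_sectIso (h : ∀ x : X, ∃ U : X.Opens, x ∈ U ∧
    Nonempty (SectIso M (SheafOfModules.unit X.ringCatSheaf) U)) :
    Scheme.Modules.IsInvertible M := by
  refine ⟨fun x => ?_⟩
  obtain ⟨U, hx, ⟨e⟩⟩ := h x
  exact ⟨U, hx, ⟨((Scheme.Modules.restrictFunctorIsoPullback U.ι).app M).symm ≪≫ e.toRestrict ≪≫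
    Scheme.Modules.restrictUnitIso U.ι⟩⟩

/-- Invertibility is invariant under isomorphism. -/
theorem isInvertible_of_iso (e : M ≅ N) (hM : Scheme.Modules.IsInvertible M) :
    Scheme.Modules.IsInvertible N :=
  isInvertible_of_sectIso fun x => by
    obtain ⟨U, hx, ⟨i⟩⟩ := exists_sectIso_unit hM x
    exact ⟨U, hx, ⟨(SectIso.ofIso e.symm U).trans i⟩⟩

theorem isQuasicoherent_unit (X : Scheme.{u}) :
    (SheafOfModules.unit.{u} X.ringCatSheaf).IsQuasicoherent :=
  (SheafOfModules.isQuasicoherent X.ringCatSheaf).prop_of_iso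
    (Limits.coproductUniqueIso fun _ : PUnit.{u + 1} => SheafOfModules.unit X.ringCatSheaf)
    (inferInstanceAs
      (SheafOfModules.free.{u} (R := X.ringCatSheaf) PUnit.{u + 1}).IsQuasicoherent)

/-- An invertible module is quasi-coherent. -/
theorem isQuasicoherent_of_isInvertible (hM : Scheme.Modules.IsInvertible M) :
    M.IsQuasicoherent := by
  choose U hx e using exists_sectIso_unit hM
  have hcov : (Opens.grothendieckTopology X).CoversTop U := by
    rw [Opens.coversTop_iff, IsOpenCover, eq_top_iff]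
    exact fun x _ => Opens.mem_iSup.2 ⟨x, hx x⟩
  have : ∀ x, (M.over (U x)).IsQuasicoherent := fun x => by
    have := isQuasicoherent_unit X
    have := SheafOfModules.isQuasicoherent_over (SheafOfModules.unit X.ringCatSheaf) (U x)
    refine (SheafOfModules.isQuasicoherent.{u} (X.ringCatSheaf.over (U x))).prop_of_iso ?_ this
    exact ((Scheme.Modules.overEquiv (U x)).fullyFaithfulFunctor.preimageIso
      ((Scheme.Modules.overFunctorEquiv (U x)).app _ ≪≫ (e x).some.toRestrict.symm ≪≫
        ((Scheme.Modules.overFunctorEquiv (U x)).app M).symm))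
  exact SheafOfModules.IsQuasicoherent.of_coversTop M U hcov

end Fermat.Agent.RelJac.Sheaf
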