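import Fermat.Agent.RelJac.Bridge.ChartCover

/-!
Charts given by open immersions of spectra, and the charts of a base change.
-/

noncomputable section

universe u

open CategoryTheory CategoryTheory.Limits AlgebraicGeometry TopologicalSpace
open scoped TensorProduct

namespace Fermat.Agent.RelJac.Sheaf

section Chart

variable {X : Scheme.{u}} {A : Type u} [CommRing A] (i : Spec (CommRingCat.of A) ⟶ X)
  [IsOpenImmersion i] {U : X.Opens} (hU : i.opensRange = U)

include hU

/-- The preimage of the image of a chart is everything. -/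
theorem preimage_chart : i ⁻¹ᵁ U = ⊤ := by
  rw [← hU, Scheme.Hom.preimage_opensRange]

/-- Functions on the image of a chart, as elements of the ring. -/
def chartHom : Γ(X, U) ⟶ CommRingCat.of A :=
  i.appLE U ⊤ (preimage_chart i hU).ge ≫ (Scheme.ΓSpecIso (CommRingCat.of A)).hom

theorem isIso_chartHom : IsIso (chartHom i hU) := by
  have : IsIso (i.app U) := i.isIso_app U hU.ge
  have : IsIso (homOfLE (preimage_chart i hU).ge).op := by
    rw [show homOfLE (preimage_chart i hU).ge = eqToHom (preimage_chart i hU).symm from rfl]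
    infer_instance
  unfold chartHom Scheme.Hom.appLE
  infer_instance

/-- The ring of a chart is the ring of functions on its image. -/
def chartRingEquiv : A ≃+* Γ(X, U) :=
  haveI := isIso_chartHom i hU
  (asIso (chartHom i hU)).commRingCatIsoToRingEquiv.symm

theorem chartHom_chartRingEquiv (x : A) : chartHom i hU (chartRingEquiv i hU x) = x :=
  haveI := isIso_chartHom i hU
  (asIso (chartHom i hU)).commRingCatIsoToRingEquiv.apply_symm_apply x

/-- The image of a chart is affine. -/
theorem isAffineOpen_chart : IsAffineOpen U :=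
  hU ▸ isAffineOpen_opensRange i

/-- The identification of functions on a chart is natural. -/
theorem chartRingEquiv_natural {X' : Scheme.{u}} {A' : Type u} [CommRing A']
    (i' : Spec (CommRingCat.of A') ⟶ X') [IsOpenImmersion i'] {U' : X'.Opens}
    (hU' : i'.opensRange = U') (φ : A →+* A') (g : X' ⟶ X)
    (hg : i' ≫ g = Spec.map (CommRingCat.ofHom φ) ≫ i) (h : U' ≤ g ⁻¹ᵁ U) (x : A) :
    g.appLE U U' h (chartRingEquiv i hU x) = chartRingEquiv i' hU' (φ x) := by
  have := isIso_chartHom i' hU'
  apply (ConcreteCategory.bijective_of_isIso (chartHom i' hU')).1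
  rw [chartHom_chartRingEquiv]
  conv_rhs => rw [← chartHom_chartRingEquiv i hU x]
  have key : g.appLE U U' h ≫ chartHom i' hU' = chartHom i hU ≫ CommRingCat.ofHom φ := by
    have e₁ : (⊤ : (Spec (CommRingCat.of A')).Opens) ≤ (Spec.map (CommRingCat.ofHom φ) ≫ i) ⁻¹ᵁ U := by
      rw [Scheme.Hom.comp_preimage, preimage_chart i hU, Scheme.Hom.preimage_top]
    have e₂ : g.appLE U U' h ≫ i'.appLE U' ⊤ (preimage_chart i' hU').ge =
        (Spec.map (CommRingCat.ofHom φ) ≫ i).appLE U ⊤ e₁ := by
      rw [Scheme.Hom.appLE_comp_appLE]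
      simp only [hg]
    have e₃ : (Spec.map (CommRingCat.ofHom φ)).appLE ⊤ ⊤ (le_refl _) =
        (Spec.map (CommRingCat.ofHom φ)).appTop := by
      delta Scheme.Hom.appLE
      exact (congr_arg (_ ≫ ·) ((Spec (CommRingCat.of A')).presheaf.map_id _)).trans (Category.comp_id _)
    rw [chartHom, chartHom, Category.assoc, ← Category.assoc, e₂,
      ← Scheme.Hom.appLE_comp_appLE (Spec.map (CommRingCat.ofHom φ)) i U ⊤ ⊤
        (preimage_chart i hU).ge (le_refl _), e₃, Category.assoc, Scheme.ΓSpecIso_naturality]
  exact congr($key (chartRingEquiv i hU x))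

/-- The identification of functions on a chart is compatible with restriction. -/
theorem resO_chartRingEquiv {A' : Type u} [CommRing A']
    (i' : Spec (CommRingCat.of A') ⟶ X) [IsOpenImmersion i'] {U' : X.Opens}
    (hU' : i'.opensRange = U') (φ : A →+* A')
    (hg : i' = Spec.map (CommRingCat.ofHom φ) ≫ i) (h : U' ≤ U) (x : A) :
    chartRingEquiv i' hU' (φ x) = resO h (chartRingEquiv i hU x) := by
  rw [← chartRingEquiv_natural i hU i' hU' φ (𝟙 X) (by rw [Category.comp_id, hg]) h x]
  simp [Scheme.Hom.appLE]
  rfl

end Chart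

section BaseChange

variable {k : Type u} [CommRing k] {C : Scheme.{u}} (c : C ⟶ Spec (CommRingCat.of k))

/-- The structure map of the spectrum of an algebra. -/
abbrev specOver (R : Type u) [CommRing R] [Algebra k R] :
    Spec (CommRingCat.of R) ⟶ Spec (CommRingCat.of k) :=
  Spec.map (CommRingCat.ofHom (algebraMap k R))

variable (R : Type u) [CommRing R] [Algebra k R] {P : Type u} [CommRing P] [Algebra k P]
  (j : Spec (CommRingCat.of P) ⟶ C) (hj : j ≫ c = Spec.map (CommRingCat.ofHom (algebraMap k P)))

/-- The chart of the base change of `c` induced by the chart `j`. -/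
def chartMap : Spec (CommRingCat.of (R ⊗[k] P)) ⟶ pullback c (specOver R) :=
  Spec.map (CommRingCat.ofHom (Algebra.TensorProduct.comm k P R).toRingEquiv.toRingHom) ≫
    (pullbackSpecIso k P R).inv ≫
    pullback.map (Spec.map (CommRingCat.ofHom (algebraMap k P))) (specOver R) c (specOver R) j (𝟙 _)
      (𝟙 _) (by rw [Category.comp_id, hj]) (by rw [Category.comp_id, Category.id_comp])

/-- The chart of a base change lies over the chart of the curve. -/
theorem chartMap_fst : chartMap c R j hj ≫ pullback.fst c (specOver R) =
    Spec.map (CommRingCat.ofHom (Algebra.TensorProduct.includeRight : P →ₐ[k] R ⊗[k] P).toRingHom) ≫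
      j := by
  simp only [chartMap, Category.assoc, pullback.lift_fst]
  rw [pullbackSpecIso_inv_fst_assoc, ← Spec.map_comp_assoc, ← CommRingCat.ofHom_comp]
  congr 3

/-- The chart of a base change lies over the base. -/
theorem chartMap_snd : chartMap c R j hj ≫ pullback.snd c (specOver R) =
    Spec.map (CommRingCat.ofHom (algebraMap R (R ⊗[k] P))) := by
  simp only [chartMap, Category.assoc, pullback.lift_snd, Category.comp_id]
  rw [pullbackSpecIso_inv_snd, ← Spec.map_comp, ← CommRingCat.ofHom_comp]
  congr 2

instance isIso_specComm :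
    IsIso (Spec.map (CommRingCat.ofHom (Algebra.TensorProduct.comm k P R).toRingEquiv.toRingHom)) :=
  (inferInstance : IsIso (Spec.map
    (Algebra.TensorProduct.comm k P R).toRingEquiv.toCommRingCatIso.hom))

instance isOpenImmersion_chartMap [IsOpenImmersion j] : IsOpenImmersion (chartMap c R j hj) := by
  unfold chartMap
  infer_instance

/-- The image of the chart of a base change is the preimage of the image of the chart. -/
theorem opensRange_chartMap [IsOpenImmersion j] :
    (chartMap c R j hj).opensRange = pullback.fst c (specOver R) ⁻¹ᵁ j.opensRange := by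
  ext1
  change Set.range (chartMap c R j hj).base = pullback.fst c (specOver R) ⁻¹' Set.range j.base
  rw [chartMap, ← Category.assoc, Scheme.Hom.comp_base, TopCat.coe_comp, Set.range_comp,
    Set.range_eq_univ.2 (Scheme.Hom.surjective _), Set.image_univ, Scheme.Pullback.range_map]
  simp

variable {R} {R' : Type u} [CommRing R'] [Algebra k R']

/-- The charts of base changes are natural in the base. -/
theorem chartMap_natural (φ : R →ₐ[k] R')
    (g : pullback c (specOver R') ⟶ pullback c (specOver R))
    (hg₁ : g ≫ pullback.fst _ _ = pullback.fst _ _)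
    (hg₂ : g ≫ pullback.snd _ _ = pullback.snd _ _ ≫ Spec.map (CommRingCat.ofHom φ.toRingHom)) :
    chartMap c R' j hj ≫ g = Spec.map (CommRingCat.ofHom
      (Algebra.TensorProduct.map φ (AlgHom.id k P)).toRingHom) ≫ chartMap c R j hj := by
  apply pullback.hom_ext
  · rw [Category.assoc, hg₁, Category.assoc, chartMap_fst, chartMap_fst, ← Spec.map_comp_assoc,
      ← CommRingCat.ofHom_comp]
    congr 3
    ext x
    simp
  · rw [Category.assoc, hg₂, ← Category.assoc, chartMap_snd, Category.assoc, chartMap_snd,
      ← Spec.map_comp, ← Spec.map_comp, ← CommRingCat.ofHom_comp, ← CommRingCat.ofHom_comp]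
    congr 2

/-- The charts of base changes are compatible with maps of charts. -/
theorem chartMap_comp {L : Type u} [CommRing L] [Algebra k L] (f : P →ₐ[k] L)
    (j' : Spec (CommRingCat.of L) ⟶ C) (hj' : j' ≫ c = Spec.map (CommRingCat.ofHom (algebraMap k L)))
    (hf : j' = Spec.map (CommRingCat.ofHom f.toRingHom) ≫ j) :
    chartMap c R j' hj' = Spec.map (CommRingCat.ofHom
      (Algebra.TensorProduct.map (AlgHom.id R R) f).toRingHom) ≫ chartMap c R j hj := by
  apply pullback.hom_ext
  · rw [chartMap_fst, Category.assoc, chartMap_fst, hf, ← Spec.map_comp_assoc, ← Spec.map_comp_assoc,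
      ← CommRingCat.ofHom_comp, ← CommRingCat.ofHom_comp]
    congr 3
  · rw [chartMap_snd, Category.assoc, chartMap_snd, ← Spec.map_comp, ← CommRingCat.ofHom_comp]
    congr 2
    ext x
    simp [Algebra.TensorProduct.algebraMap_apply]

end BaseChange

end Fermat.Agent.RelJac.Sheaf
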