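import Fermat.Agent.RelJac.CurveModel
import Fermat.Agent.RelJac.BaseChange
import Fermat.Agent.RelJac.Bridge.SpecChart
import Fermat.Agent.RelJac.Bridge.ChartExists
import Fermat.Agent.RelJac.Bridge.ChartPullback

/-!
Invertible modules on the base change of a curve to an affine scheme and bundles on its model.
-/

noncomputable section

universe u

open CategoryTheory CategoryTheory.Limits AlgebraicGeometry TopologicalSpace NeronModelInfra
open AlgebraicGeometry.RelPicard
open scoped TensorProduct

namespace Fermat.Agent.RelJac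

open Sheaf (specOver chartMap chartRingEquiv)

/-- The morphism over the base induced by an algebra map. -/
def specHom {k R R' : Type u} [CommRing k] [CommRing R] [Algebra k R] [CommRing R'] [Algebra k R']
    (φ : R →ₐ[k] R') : SchemeHomOver (specOver (k := k) R') (specOver (k := k) R) :=
  ⟨Spec.map (CommRingCat.ofHom φ.toRingHom), by
    rw [← Spec.map_comp, ← CommRingCat.ofHom_comp]
    exact congr_arg (fun t => Spec.map (CommRingCat.ofHom t)) φ.comp_algebraMap⟩

namespace CurveModel

variable {k : Type u} [Field k] {C : Scheme.{u}} {c : C ⟶ Spec (CommRingCat.of k)}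
  {ε : SchemeHomOver (𝟙 (Spec (CommRingCat.of k))) c} (D : CurveModel c ε)

/-- The chart of the overlap. -/
def jL : Spec (CommRingCat.of D.T.L) ⟶ C :=
  Spec.map (CommRingCat.ofHom (IsScalarTower.toAlgHom k D.T.P D.T.L).toRingHom) ≫ D.jP

theorem jL_eq : D.jL =
    Spec.map (CommRingCat.ofHom (IsScalarTower.toAlgHom k D.T.Q D.T.L).toRingHom) ≫ D.jQ :=
  D.isPullback.w

theorem jL_over : D.jL ≫ c = Spec.map (CommRingCat.ofHom (algebraMap k D.T.L)) := by
  rw [jL, Category.assoc, D.jP_over, ← Spec.map_comp, ← CommRingCat.ofHom_comp]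
  exact congr_arg (fun t => Spec.map (CommRingCat.ofHom t))
    (IsScalarTower.toAlgHom k D.T.P D.T.L).comp_algebraMap

theorem jL_eq_pullback : D.jL = D.isPullback.isoPullback.hom ≫ pullback.fst D.jP D.jQ ≫ D.jP :=
  ((Category.assoc _ _ _).symm.trans
    (congr_arg (· ≫ D.jP) D.isPullback.isoPullback_hom_fst)).symm

instance isOpenImmersion_jL : IsOpenImmersion D.jL := by
  rw [D.jL_eq_pullback]
  infer_instance

theorem opensRange_jL : D.jL.opensRange = D.jP.opensRange ⊓ D.jQ.opensRange := by
  ext1
  change Set.range D.jL.base = Set.range D.jP.base ∩ Set.range D.jQ.base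
  rw [D.jL_eq_pullback, Scheme.Hom.comp_base, TopCat.coe_comp, Set.range_comp,
    Set.range_eq_univ.2 (Scheme.Hom.surjective _), Set.image_univ,
    IsOpenImmersion.range_pullback_to_base_of_left]

variable (R : Type u) [CommRing R] [Algebra k R]

/-- The first chart of the base change to `R`. -/
abbrev iP : Spec (CommRingCat.of (R ⊗[k] D.T.P)) ⟶ pullback c (specOver R) :=
  chartMap c R D.jP D.jP_over

/-- The second chart of the base change to `R`. -/
abbrev iQ : Spec (CommRingCat.of (R ⊗[k] D.T.Q)) ⟶ pullback c (specOver R) :=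
  chartMap c R D.jQ D.jQ_over

/-- The overlap chart of the base change to `R`. -/
abbrev iL : Spec (CommRingCat.of (R ⊗[k] D.T.L)) ⟶ pullback c (specOver R) :=
  chartMap c R D.jL D.jL_over

theorem opensRange_iL : (D.iL R).opensRange = (D.iP R).opensRange ⊓ (D.iQ R).opensRange := by
  rw [Sheaf.opensRange_chartMap, Sheaf.opensRange_chartMap, Sheaf.opensRange_chartMap,
    D.opensRange_jL]
  rfl

/-- The two affine charts of the base change to `R`. -/
def chartCover : Sheaf.ChartCover (D.T.baseChange R) (pullback c (specOver R)) where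
  UP := (D.iP R).opensRange
  UQ := (D.iQ R).opensRange
  affineP := isAffineOpen_opensRange _
  affineQ := isAffineOpen_opensRange _
  affineL := Sheaf.isAffineOpen_chart (D.iL R) (D.opensRange_iL R)
  cover := by
    rw [Sheaf.opensRange_chartMap, Sheaf.opensRange_chartMap, eq_top_iff]
    intro x _
    have := D.cover.ge (Set.mem_univ ((pullback.fst c (specOver R)).base x))
    exact this
  aP := chartRingEquiv (D.iP R) rfl
  aQ := chartRingEquiv (D.iQ R) rfl
  aL := chartRingEquiv (D.iL R) (D.opensRange_iL R)
  commP := Sheaf.resO_chartRingEquiv (D.iP R) rfl (D.iL R) (D.opensRange_iL R)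
    (Algebra.TensorProduct.map (AlgHom.id R R) (IsScalarTower.toAlgHom k D.T.P D.T.L)).toRingHom
    (Sheaf.chartMap_comp c D.jP D.jP_over _ D.jL D.jL_over rfl) inf_le_left
  commQ := Sheaf.resO_chartRingEquiv (D.iQ R) rfl (D.iL R) (D.opensRange_iL R)
    (Algebra.TensorProduct.map (AlgHom.id R R) (IsScalarTower.toAlgHom k D.T.Q D.T.L)).toRingHom
    (Sheaf.chartMap_comp c D.jQ D.jQ_over _ D.jL D.jL_over D.jL_eq) inf_le_right

variable {R}

/-- The class of an invertible module on the base change of the curve to `R`. -/
def clsOf (M : (pullback c (specOver R)).Modules) (hM : Scheme.Modules.IsInvertible M) :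
    Bundle.Cls (D.T.baseChange R) :=
  (D.chartCover R).clsOf M hM

/-- Two invertible modules have the same class on the model exactly when they are isomorphic. -/
theorem clsOf_eq_iff {M N : (pullback c (specOver R)).Modules}
    (hM : Scheme.Modules.IsInvertible M) (hN : Scheme.Modules.IsInvertible N) :
    D.clsOf M hM = D.clsOf N hN ↔ Nonempty (M ≅ N) :=
  (D.chartCover R).clsOf_eq_iff hM hN

/-- Isomorphic modules have the same class. -/
theorem clsOf_congr {M N : (pullback c (specOver R)).Modules}
    (hM : Scheme.Modules.IsInvertible M) (hN : Scheme.Modules.IsInvertible N) (e : M ≅ N) :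
    D.clsOf M hM = D.clsOf N hN :=
  (D.clsOf_eq_iff hM hN).2 ⟨e⟩

/-- The structure sheaf has the trivial class. -/
theorem clsOf_unit :
    D.clsOf (SheafOfModules.unit (pullback c (specOver R)).ringCatSheaf)
      (Scheme.Modules.isInvertible_unit _) = 1 :=
  (D.chartCover R).clsOf_unit

/-- Every class on the model comes from an invertible module. -/
theorem exists_clsOf_eq (x : Bundle.Cls (D.T.baseChange R)) :
    ∃ (M : (pullback c (specOver R)).Modules) (hM : Scheme.Modules.IsInvertible M),
      D.clsOf M hM = x :=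
  (D.chartCover R).exists_clsOf_eq x

variable {R' : Type u} [CommRing R'] [Algebra k R']

theorem baseChangeSnd_specHom_fst (φ : R →ₐ[k] R') :
    baseChangeSnd c (specHom φ) ≫ pullback.fst c (specOver R) = pullback.fst c (specOver R') := by
  exact (pullback.lift_fst _ _ _).trans (Category.comp_id _)

theorem baseChangeSnd_specHom_snd (φ : R →ₐ[k] R') :
    baseChangeSnd c (specHom φ) ≫ pullback.snd c (specOver R) =
      pullback.snd c (specOver R') ≫ Spec.map (CommRingCat.ofHom φ.toRingHom) := by
  exact pullback.lift_snd _ _ _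

theorem opensRange_chartMap_natural (φ : R →ₐ[k] R') {P : Type u} [CommRing P] [Algebra k P]
    (j : Spec (CommRingCat.of P) ⟶ C) [IsOpenImmersion j]
    (hj : j ≫ c = Spec.map (CommRingCat.ofHom (algebraMap k P))) :
    (chartMap c R' j hj).opensRange ≤
      baseChangeSnd c (specHom φ) ⁻¹ᵁ (chartMap c R j hj).opensRange := by
  rw [Sheaf.opensRange_chartMap, Sheaf.opensRange_chartMap, ← Scheme.Hom.comp_preimage,
    baseChangeSnd_specHom_fst]

/-- The class of a base change is the base change of the class. -/
theorem clsOf_pullback (φ : R →ₐ[k] R') {M : (pullback c (specOver R)).Modules}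
    (hM : Scheme.Modules.IsInvertible M) :
    D.clsOf ((Scheme.Modules.pullback (baseChangeSnd c (specHom φ))).obj M)
      (hM.pullback (baseChangeSnd c (specHom φ))) = Bundle.bcCls φ (D.clsOf M hM) := by
  let := D.T.overBC φ
  refine (D.chartCover R).clsOf_pullback (D.chartCover R') (baseChangeSnd c (specHom φ))
    (opensRange_chartMap_natural φ D.jP D.jP_over) (opensRange_chartMap_natural φ D.jQ D.jQ_over)
    (fun p => ?_) (fun q => ?_) (fun l => ?_) hM
  · exact Sheaf.chartRingEquiv_natural (D.iP R) rfl (D.iP R') rfl _ _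
      (Sheaf.chartMap_natural c D.jP D.jP_over φ _ (baseChangeSnd_specHom_fst φ)
        (baseChangeSnd_specHom_snd φ)) _ p
  · exact Sheaf.chartRingEquiv_natural (D.iQ R) rfl (D.iQ R') rfl _ _
      (Sheaf.chartMap_natural c D.jQ D.jQ_over φ _ (baseChangeSnd_specHom_fst φ)
        (baseChangeSnd_specHom_snd φ)) _ q
  · exact Sheaf.chartRingEquiv_natural (D.iL R) (D.opensRange_iL R) (D.iL R')
      (D.opensRange_iL R') _ _ (Sheaf.chartMap_natural c D.jL D.jL_over φ _
        (baseChangeSnd_specHom_fst φ) (baseChangeSnd_specHom_snd φ)) _ l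

end CurveModel

end Fermat.Agent.RelJac
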