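import Fermat.Agent.RelJac.Bridge.Sections

/-!
Inverse images of morphisms over open subsets.
-/

noncomputable section

universe u

open CategoryTheory AlgebraicGeometry TopologicalSpace

namespace Fermat.Agent.RelJac.Sheaf

variable {X X' : Scheme.{u}} {M N K : X.Modules} {U : X.Opens}

/-- A composite of morphisms of modules evaluated on a section. -/
theorem comp_app_apply (φ : M ⟶ N) (ψ : N ⟶ K) (W : X.Opens) (x : Γ(M, W)) :
    (φ ≫ ψ).app W x = ψ.app W (φ.app W x) := by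
  rw [Scheme.Modules.Hom.comp_app, ConcreteCategory.comp_apply]

theorem id_app_apply (W : X.Opens) (x : Γ(M, W)) : (𝟙 M : M ⟶ M).app W x = x := by
  rw [Scheme.Modules.Hom.id_app, ConcreteCategory.id_apply]

theorem sig_eq_restrict (j : X' ⟶ X) [IsOpenImmersion j] (M : X.Modules) {W : X.Opens}
    (h : j ''ᵁ (j ⁻¹ᵁ W) ≤ W) (s : Γ(M, W)) :
    sig j M (le_refl (j ⁻¹ᵁ W)) s =
      ((Scheme.Modules.restrictFunctorIsoPullback j).hom.app M).app (j ⁻¹ᵁ W) (res M h s) := by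
  rw [sig_apply, res_self]
  exact congr(($((Scheme.Modules.restrictAdjunction j).unit_leftAdjointUniq_hom_app
    (Scheme.Modules.pullbackPushforwardAdjunction j) M).app W) s).symm

/-- A morphism over an open subset, on inverse images along its inclusion. -/
def SectHom.toPullback (f : SectHom M N U) :
    (Scheme.Modules.pullback U.ι).obj M ⟶ (Scheme.Modules.pullback U.ι).obj N :=
  (Scheme.Modules.restrictFunctorIsoPullback U.ι).inv.app M ≫ f.toRestrict ≫
    (Scheme.Modules.restrictFunctorIsoPullback U.ι).hom.app N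

theorem SectHom.toPullback_sig (f : SectHom M N U) {W : X.Opens} (hW : W ≤ U)
    {W' : U.toScheme.Opens} (h : W' ≤ U.ι ⁻¹ᵁ W) (s : Γ(M, W)) :
    f.toPullback.app W' (sig U.ι M h s) = sig U.ι N h (f.app W hW s) := by
  have hle : U.ι ''ᵁ (U.ι ⁻¹ᵁ W) ≤ W := U.ι.image_preimage_le W
  rw [← res_sig U.ι M (le_refl _) h, ← res_sig U.ι N (le_refl _) h, sig_eq_restrict _ _ hle,
    sig_eq_restrict _ _ hle, ← f.natural hle hW]
  refine (congr($(f.toPullback.val.naturality (homOfLE h).op).hom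
    (((Scheme.Modules.restrictFunctorIsoPullback U.ι).hom.app M).app (U.ι ⁻¹ᵁ W)
      (res M hle s)))).trans (congr_arg (res _ h) ?_)
  have hinv : ∀ x, ((Scheme.Modules.restrictFunctorIsoPullback U.ι).inv.app M).app (U.ι ⁻¹ᵁ W)
      (((Scheme.Modules.restrictFunctorIsoPullback U.ι).hom.app M).app (U.ι ⁻¹ᵁ W) x) = x :=
    fun x => congr(($((Scheme.Modules.restrictFunctorIsoPullback U.ι).hom_inv_id_app M).app
      (U.ι ⁻¹ᵁ W)) x)
  exact congr_arg (fun x => ((Scheme.Modules.restrictFunctorIsoPullback U.ι).hom.app N).app (U.ι ⁻¹ᵁ W)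
    (f.toRestrict.app (U.ι ⁻¹ᵁ W) x)) (hinv (res M hle s))

/-- Composition of inverse images, on a module. -/
def compIso {X'' : Scheme.{u}} (f : X'' ⟶ X') (g : X' ⟶ X) (M : X.Modules) :
    (Scheme.Modules.pullback f).obj ((Scheme.Modules.pullback g).obj M) ≅
      (Scheme.Modules.pullback (f ≫ g)).obj M :=
  (Scheme.Modules.pullbackComp f g).app M

theorem compIso_sig {X'' : Scheme.{u}} (f : X'' ⟶ X') (g : X' ⟶ X) (M : X.Modules) {W : X.Opens}
    {W' : X'.Opens} {W'' : X''.Opens} (h : W' ≤ g ⁻¹ᵁ W) (h' : W'' ≤ f ⁻¹ᵁ W') (s : Γ(M, W)) :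
    (compIso f g M).hom.app W'' (sig f _ h' (sig g M h s)) =
      sig (f ≫ g) M (h'.trans (f.preimage_mono h)) s :=
  sig_comp f g M h h' s

/-- The identification of iterated inverse images around a restricted morphism. -/
irreducible_def squareIso (g : X' ⟶ X) (M : X.Modules) (U : X.Opens) :
    (Scheme.Modules.pullback (g ∣_ U)).obj ((Scheme.Modules.pullback U.ι).obj M) ≅
      (Scheme.Modules.pullback (g ⁻¹ᵁ U).ι).obj ((Scheme.Modules.pullback g).obj M) :=
  compIso (g ∣_ U) U.ι M ≪≫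
    (Scheme.Modules.pullbackCongr (morphismRestrict_ι g U)).app M ≪≫
    (compIso (g ⁻¹ᵁ U).ι g M).symm

theorem squareIso_sig (g : X' ⟶ X) (M : X.Modules) {W : X.Opens} {W' : X'.Opens}
    (h : W' ≤ g ⁻¹ᵁ W) (hW : (g ⁻¹ᵁ U).ι ⁻¹ᵁ W' ≤ (g ∣_ U) ⁻¹ᵁ (U.ι ⁻¹ᵁ W)) (s : Γ(M, W)) :
    (squareIso g M U).hom.app _ (sig (g ∣_ U) _ hW (sig U.ι M (le_refl (U.ι ⁻¹ᵁ W)) s)) =
      sig (g ⁻¹ᵁ U).ι _ (le_refl _) (sig g M h s) := by
  rw [squareIso, Iso.trans_hom, Iso.trans_hom, comp_app_apply, comp_app_apply,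
    Iso.app_hom, Iso.symm_hom, compIso_sig, sig_congr (morphismRestrict_ι g U),
    ← compIso_sig (g ⁻¹ᵁ U).ι g M h (le_refl _), ← comp_app_apply, Iso.hom_inv_id, id_app_apply]

/-- The morphism of inverse images inducing the inverse image of a morphism over an open subset. -/
irreducible_def pullbackMap (g : X' ⟶ X) (f : SectHom M N U) :
    (Scheme.Modules.pullback (g ⁻¹ᵁ U).ι).obj ((Scheme.Modules.pullback g).obj M) ⟶
      (Scheme.Modules.pullback (g ⁻¹ᵁ U).ι).obj ((Scheme.Modules.pullback g).obj N) :=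
  (squareIso g M U).inv ≫ (Scheme.Modules.pullback (g ∣_ U)).map f.toPullback ≫
    (squareIso g N U).hom

/-- The inverse image of a morphism over an open subset. -/
def SectHom.pullback (g : X' ⟶ X) (f : SectHom M N U) :
    SectHom ((Scheme.Modules.pullback g).obj M) ((Scheme.Modules.pullback g).obj N) (g ⁻¹ᵁ U) :=
  SectHom.ofPullback (g ⁻¹ᵁ U).ι (g ⁻¹ᵁ U).opensRange_ι.ge (pullbackMap g f)

theorem sig_pullback_app (g : X' ⟶ X) (f : SectHom M N U) {W : X'.Opens}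
    (hW : W ≤ g ⁻¹ᵁ U) (t : Γ((Scheme.Modules.pullback g).obj M, W)) :
    sig (g ⁻¹ᵁ U).ι ((Scheme.Modules.pullback g).obj N) (le_refl ((g ⁻¹ᵁ U).ι ⁻¹ᵁ W))
        ((f.pullback g).app W hW t) =
      (pullbackMap g f).app ((g ⁻¹ᵁ U).ι ⁻¹ᵁ W)
        (sig (g ⁻¹ᵁ U).ι _ (le_refl ((g ⁻¹ᵁ U).ι ⁻¹ᵁ W)) t) :=
  SectHom.sig_ofPullback _ _ (pullbackMap g f) hW (le_refl _) t

/-- The inverse image of a morphism commutes with pullback of sections. -/
theorem SectHom.pullback_sig (g : X' ⟶ X) (f : SectHom M N U) {W : X.Opens} {W' : X'.Opens}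
    (hW : W ≤ U) (hW' : W' ≤ g ⁻¹ᵁ U) (h : W' ≤ g ⁻¹ᵁ W) (s : Γ(M, W)) :
    (f.pullback g).app W' hW' (sig g M h s) = sig g N h (f.app W hW s) := by
  have hle : (g ⁻¹ᵁ U).ι ⁻¹ᵁ W' ≤ (g ∣_ U) ⁻¹ᵁ (U.ι ⁻¹ᵁ W) := by
    rw [← Scheme.Hom.comp_preimage, morphismRestrict_ι, Scheme.Hom.comp_preimage]
    exact (g ⁻¹ᵁ U).ι.preimage_mono h
  apply (immSecEquiv (g ⁻¹ᵁ U).ι _ W' (hW'.trans (g ⁻¹ᵁ U).opensRange_ι.ge)).injective
  rw [immSecEquiv_apply, immSecEquiv_apply]
  rw [sig_pullback_app]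
  rw [← squareIso_sig g M h hle, ← squareIso_sig g N h hle]
  rw [pullbackMap, comp_app_apply, comp_app_apply, ← comp_app_apply (squareIso g M U).hom, Iso.hom_inv_id,
    id_app_apply, ← SectHom.toPullback_sig f hW (le_refl (U.ι ⁻¹ᵁ W)), ← sig_natural]

/-- Morphisms out of an inverse image are determined on pulled back sections. -/
theorem SectHom.ext_pullback (g : X' ⟶ X) (hM : IsInvertibleOn M U) {P : X'.Modules}
    {V : X'.Opens} (hV : V ≤ g ⁻¹ᵁ U) {f f' : SectHom ((Scheme.Modules.pullback g).obj M) P V}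
    (h : ∀ (W : X.Opens) (W' : X'.Opens) (_ : W ≤ U) (hW' : W' ≤ V) (hle : W' ≤ g ⁻¹ᵁ W)
      (s : Γ(M, W)), f.app W' hW' (sig g M hle s) = f'.app W' hW' (sig g M hle s)) : f = f' := by
  refine SectHom.eq_of_restrict_eq (V := fun P : {P : X.Opens × X'.Opens //
    IsAffineOpen P.1 ∧ IsAffineOpen P.2 ∧ P.1 ≤ U ∧ P.2 ≤ V ∧ P.2 ≤ g ⁻¹ᵁ P.1} => P.1.2)
    (fun P => P.2.2.2.2.1) (fun x hx => ?_) fun ⟨⟨W, W'⟩, hW, hW', hWU, hW'V, hle⟩ => ?_
  · obtain ⟨_, ⟨W, hW, rfl⟩, hxW, hWU⟩ :=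
      X.isBasis_affineOpens.exists_subset_of_mem_open (hV hx) U.2
    obtain ⟨_, ⟨W', hW', rfl⟩, hxW', hW'V⟩ :=
      X'.isBasis_affineOpens.exists_subset_of_mem_open
        (show x ∈ V ⊓ g ⁻¹ᵁ W from ⟨hx, hxW⟩) (V ⊓ g ⁻¹ᵁ W).2
    exact Opens.mem_iSup.2 ⟨⟨⟨W, W'⟩, hW, hW', hWU, fun y hy => (hW'V hy).1,
      fun y hy => (hW'V hy).2⟩, hxW'⟩
  · have hinv : IsInvertibleOn ((Scheme.Modules.pullback g).obj M) W' := fun x hx => by
      obtain ⟨O, hxO, ⟨i⟩⟩ := hM (g.base x) (hWU (hle hx))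
      refine ⟨g ⁻¹ᵁ O, hxO, ⟨SectIso.ofPullback (g ⁻¹ᵁ O).ι (g ⁻¹ᵁ O).opensRange_ι.ge ?_⟩⟩
      exact (squareIso g M O).symm ≪≫ (Scheme.Modules.pullback (g ∣_ O)).mapIso
          (((Scheme.Modules.restrictFunctorIsoPullback O.ι).app M).symm ≪≫ i.toRestrict ≪≫
            Scheme.Modules.restrictUnitIso O.ι) ≪≫
        Scheme.Modules.pullbackUnitIso (g ∣_ O) ≪≫
        (Scheme.Modules.pullbackUnitIso (g ⁻¹ᵁ O).ι).symm
    refine SectHom.ext_affine hinv hW' fun t => ?_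
    simp only [SectHom.restrict_app]
    exact LinearMap.congr_fun (semiBC_ext (semiBC_sig g (hM.mono hWU) hW hW' hle)
      fun s => h W W' hWU hW'V hle s) t

theorem SectHom.pullback_comp (g : X' ⟶ X) (hM : IsInvertibleOn M U) (f : SectHom M N U)
    (f' : SectHom N K U) :
    (f.comp f').pullback g = (f.pullback g).comp (f'.pullback g) := by
  refine SectHom.ext_pullback g hM le_rfl fun W W' hW hW' hle s => ?_
  rw [SectHom.comp_app, SectHom.pullback_sig g _ hW, SectHom.pullback_sig g _ hW,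
    SectHom.pullback_sig g _ hW, SectHom.comp_app]

theorem SectHom.pullback_id (g : X' ⟶ X) (hM : IsInvertibleOn M U) :
    (SectHom.id M U).pullback g = SectHom.id _ _ := by
  refine SectHom.ext_pullback g hM le_rfl fun W W' hW hW' hle s => ?_
  rw [SectHom.pullback_sig g _ hW, SectHom.id_app, SectHom.id_app]

/-- The inverse image of an isomorphism over an open subset. -/
def SectIso.pullback (g : X' ⟶ X) (e : SectIso M N U) (hM : IsInvertibleOn M U) :
    SectIso ((Scheme.Modules.pullback g).obj M) ((Scheme.Modules.pullback g).obj N) (g ⁻¹ᵁ U) where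
  hom := e.hom.pullback g
  inv := e.inv.pullback g
  hom_inv W hW s := by
    rw [← SectHom.comp_app, ← SectHom.pullback_comp g hM,
      show e.hom.comp e.inv = SectHom.id M U from SectHom.hext e.hom_inv, SectHom.pullback_id g hM]
    rfl
  inv_hom W hW s := by
    rw [← SectHom.comp_app, ← SectHom.pullback_comp g (hM.of_sectIso e.symm),
      show e.inv.comp e.hom = SectHom.id N U from SectHom.hext e.inv_hom,
      SectHom.pullback_id g (hM.of_sectIso e.symm)]
    rfl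

/-- An isomorphism over an open subset gives an isomorphism of inverse images along any morphism
factoring through it. -/
theorem SectIso.nonempty_pullback_iso (e : SectIso M N U) (f : X' ⟶ X)
    (hf : Set.range f.base ⊆ U) :
    Nonempty ((Scheme.Modules.pullback f).obj M ≅ (Scheme.Modules.pullback f).obj N) := by
  have hl : IsOpenImmersion.lift U.ι f (by rwa [Scheme.Opens.range_ι]) ≫ U.ι = f :=
    IsOpenImmersion.lift_fac _ _ _
  exact ⟨(Scheme.Modules.pullbackCongr hl).symm.app M ≪≫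
    ((Scheme.Modules.pullbackComp _ _).app M).symm ≪≫
    (Scheme.Modules.pullback _).mapIso (((Scheme.Modules.restrictFunctorIsoPullback U.ι).app M).symm
      ≪≫ e.toRestrict ≪≫ (Scheme.Modules.restrictFunctorIsoPullback U.ι).app N) ≪≫
    (Scheme.Modules.pullbackComp _ _).app N ≪≫ (Scheme.Modules.pullbackCongr hl).app N⟩

end Fermat.Agent.RelJac.Sheaf
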