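import Fermat.Agent.RelJac.Bridge.Model

/-!
The rigidifying map on classes and restriction along the section.
-/

noncomputable section

universe u

open CategoryTheory CategoryTheory.Limits AlgebraicGeometry TopologicalSpace NeronModelInfra
open AlgebraicGeometry.RelPicard
open scoped TensorProduct

namespace Fermat.Agent.RelJac

open Sheaf (specOver chartMap chartRingEquiv ChartSec chartSecEquiv modO)

namespace Sheaf

theorem pic_mk_baseChange {A B M : Type u} [CommRing A] [CommRing B] [Algebra A B] [AddCommGroup M]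
    [Module A M] [Module.Invertible A M] :
    CommRing.Pic.mapAlgebra A B (CommRing.Pic.mk A M) = CommRing.Pic.mk B (B ⊗[A] M) :=
  CommRing.Pic.mk_eq_mk_iff.2
    ⟨TensorProduct.AlgebraTensorModule.congr (.refl _ _) (CommRing.Pic.mk.linearEquiv A M)⟩

variable {X : Scheme.{u}} {A : Type u} [CommRing A] {U : X.Opens} (a : A ≃+* Γ(X, U))

/-- Chart sections of the structure sheaf. -/
def chartSecUnit : ChartSec a (modO X) ≃ₗ[A] A :=
  { (chartSecEquiv a (modO X)).trans a.symm.toAddEquiv with
    map_smul' := fun r (s : Γ(X, U)) => a.injective (by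
      change a (a.symm (a r * s)) = a (r * a.symm s)
      simp only [map_mul, RingEquiv.apply_symm_apply, RingEquiv.symm_apply_apply]) }

theorem chartSec_equiv_self_iff (hU : U = ⊤) (hA : IsAffineOpen U) {N : X.Modules}
    (hN : Scheme.Modules.IsInvertible N) :
    Nonempty (ChartSec a N ≃ₗ[A] A) ↔ Nonempty (N ≅ modO X) := by
  constructor
  · rintro ⟨e⟩
    obtain ⟨g, -⟩ := SectIso.exists_extend (isInvertibleOn_of_isInvertible hN U)
      (isInvertibleOn_of_isInvertible (M := modO X) (Scheme.Modules.isInvertible_unit X) U) hA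
      (ChartCover.toSecMap a (e.trans (chartSecUnit a).symm))
    exact ⟨(g.restrict hU.ge).toIso⟩
  · rintro ⟨i⟩
    exact ⟨(ChartCover.ofSecMap a ((SectIso.ofIso i U).linearEquiv U le_rfl)).trans (chartSecUnit a)⟩

theorem pullback_point_iff {R : Type u} [CommRing R] [Algebra A R]
    (i : Spec (CommRingCat.of A) ⟶ X) [IsOpenImmersion i] (hi : i.opensRange = U)
    (s : Spec (CommRingCat.of R) ⟶ X) (hs : s = Spec.map (CommRingCat.ofHom (algebraMap A R)) ≫ i)
    {M : X.Modules} (hM : Scheme.Modules.IsInvertible M)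
    [Module.Invertible A (ChartSec (chartRingEquiv i hi) M)] :
    CommRing.Pic.mapAlgebra A R (CommRing.Pic.mk A (ChartSec (chartRingEquiv i hi) M)) = 1 ↔
      Nonempty ((Scheme.Modules.pullback s).obj M ≅ modO (Spec (CommRingCat.of R))) := by
  have hT : (𝟙 (Spec (CommRingCat.of R)) : _ ⟶ _).opensRange = ⊤ :=
    Scheme.Hom.opensRange_of_isIso _
  have hs' : 𝟙 _ ≫ s = Spec.map (CommRingCat.ofHom (algebraMap A R)) ≫ i := by
    rw [Category.id_comp, hs]
  have h : (⊤ : (Spec (CommRingCat.of R)).Opens) ≤ s ⁻¹ᵁ U := by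
    rw [hs, Scheme.Hom.comp_preimage, preimage_chart i hi, Scheme.Hom.preimage_top]
  have hA := isAffineOpen_chart i hi
  obtain ⟨e, -⟩ := exists_chartSec_equiv s (chartRingEquiv i hi) (chartRingEquiv (𝟙 _) hT) h
    (chartRingEquiv_natural i hi _ hT _ s hs' h) (isInvertibleOn_of_isInvertible hM _) hA
    (isAffineOpen_top _)
  rw [pic_mk_baseChange, CommRing.Pic.mk_eq_one_iff]
  exact Iff.trans ⟨fun ⟨f⟩ => ⟨e.symm.trans f⟩, fun ⟨f⟩ => ⟨e.trans f⟩⟩
    (chartSec_equiv_self_iff _ rfl (isAffineOpen_top _) (hM.pullback s))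

end Sheaf

namespace CurveModel

variable {k : Type u} [Field k] {C : Scheme.{u}} {c : C ⟶ Spec (CommRingCat.of k)}
  {ε : SchemeHomOver (𝟙 (Spec (CommRingCat.of k))) c} (D : CurveModel c ε)
  (R : Type u) [CommRing R] [Algebra k R]

theorem rigSection_eq :
    rigSection c (specOver R) ε =
      Spec.map (CommRingCat.ofHom (Bundle.pointP (R := R) D.e).toRingHom) ≫ D.iP R := by
  apply pullback.hom_ext
  · rw [rigSection, pullback.lift_fst, Category.assoc, Sheaf.chartMap_fst, ← D.e_spec,
      ← Spec.map_comp_assoc, ← Category.assoc, ← Spec.map_comp, ← CommRingCat.ofHom_comp,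
      ← CommRingCat.ofHom_comp]
    congr 3
    ext p
    simp [Bundle.pointP_tmul]
  · rw [rigSection, pullback.lift_snd, Category.assoc, Sheaf.chartMap_snd, ← Spec.map_comp,
      ← CommRingCat.ofHom_comp]
    rw [show (Bundle.pointP (R := R) D.e).toRingHom.comp (algebraMap R (R ⊗[k] D.T.P)) =
      RingHom.id R from RingHom.ext fun r => (Bundle.pointP (R := R) D.e).commutes r]
    exact (Spec.map_id _).symm

variable {R}

/-- The class is normalised exactly when the module is trivial along the section. -/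
theorem rig_clsOf {M : (pullback c (specOver R)).Modules} (hM : Scheme.Modules.IsInvertible M) :
    Bundle.rig D.e (D.clsOf M hM) = 1 ↔
      Nonempty ((Scheme.Modules.pullback (rigSection c (specOver R) ε)).obj M ≅
        SheafOfModules.unit (Spec (CommRingCat.of R)).ringCatSheaf) := by
  let : Algebra (R ⊗[k] D.T.P) R := (Bundle.pointP D.e).toRingHom.toAlgebra
  have : Module.Invertible (R ⊗[k] D.T.P) (ChartSec (chartRingEquiv (D.iP R) rfl) M) :=
    Sheaf.invertible_chartSec (chartRingEquiv (D.iP R) rfl)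
      (Sheaf.isInvertibleOn_of_isInvertible hM _) (isAffineOpen_opensRange _)
  have hcls : Bundle.picP (D.clsOf M hM) =
      CommRing.Pic.mk (R ⊗[k] D.T.P) (ChartSec (chartRingEquiv (D.iP R) rfl) M) := rfl
  have key := Sheaf.pullback_point_iff (D.iP R) rfl _ (D.rigSection_eq R) hM
  rw [Bundle.rig, MonoidHom.comp_apply, hcls]
  exact key

end CurveModel

end Fermat.Agent.RelJac
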