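import Mathlib.RingTheory.IsTensorProduct
import Mathlib.LinearAlgebra.TensorProduct.Tower

/-!
Semilinear maps that exhibit a module as a base change.
-/

noncomputable section

universe u

open scoped TensorProduct

namespace Fermat.Agent.RelJac.Sheaf

variable {A B A' B' M N M' N' : Type u} [CommRing A] [CommRing B] [CommRing A'] [CommRing B']
  [AddCommGroup M] [Module A M] [AddCommGroup N] [Module B N]
  [AddCommGroup M'] [Module A' M'] [AddCommGroup N'] [Module B' N']

/-- The additive map `f : M → N` exhibits `N` as the base change of `M` along `φ`. -/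
def SemiBC (φ : A →+* B) (f : M →+ N) : Prop :=
  letI : Algebra A B := φ.toAlgebra
  ∃ e : B ⊗[A] M ≃ₗ[B] N, ∀ m, e (1 ⊗ₜ m) = f m

/-- A semilinear base change map is semilinear. -/
theorem SemiBC.map_smul {φ : A →+* B} {f : M →+ N} (h : SemiBC φ f) (a : A) (m : M) :
    f (a • m) = φ a • f m := by
  let : Algebra A B := φ.toAlgebra
  obtain ⟨e, he⟩ := h
  have : ((1 : B) ⊗ₜ[A] (a • m)) = (φ a) • ((1 : B) ⊗ₜ[A] m) := by
    rw [TensorProduct.tmul_smul, TensorProduct.smul_tmul', TensorProduct.smul_tmul', smul_eq_mul,
      Algebra.smul_def]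
    rfl
  rw [← he, ← he, this, _root_.map_smul]

/-- A base change map is a semilinear base change. -/
theorem semiBC_of_isBaseChange [inst : Algebra A B] [Module A N] [IsScalarTower A B N] {φ : A →+* B}
    (hφ : algebraMap A B = φ) {f : M →ₗ[A] N} (h : IsBaseChange B f) :
    SemiBC φ f.toAddMonoidHom := by
  subst hφ
  have H : ∀ (i : Algebra A B), inst = i → letI := i
      ∃ e : B ⊗[A] M ≃ₗ[B] N, ∀ m, e (1 ⊗ₜ m) = f m := by
    intro i hi
    subst hi
    exact ⟨h.equiv, fun m => by simp [IsBaseChange.equiv_tmul]⟩
  exact H (algebraMap A B).toAlgebra (Algebra.algebra_ext _ _ fun _ => rfl)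

/-- A semilinear base change which is linear is a base change map. -/
theorem SemiBC.isBaseChange [inst : Algebra A B] [Module A N] [IsScalarTower A B N] {φ : A →+* B}
    {f : M →+ N} (h : SemiBC φ f) (hφ : algebraMap A B = φ) (g : M →ₗ[A] N)
    (hg : ∀ m, g m = f m) : IsBaseChange B g := by
  subst hφ
  let P : Prop := IsBaseChange B g
  have H : ∀ (i : Algebra A B), inst = i → (letI := i
      ∃ e : B ⊗[A] M ≃ₗ[B] N, ∀ m, e (1 ⊗ₜ m) = f m) → P := by
    intro i hi
    subst hi
    rintro ⟨e, he⟩
    exact IsBaseChange.of_equiv e fun m => by rw [he, hg]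
  exact H (algebraMap A B).toAlgebra (Algebra.algebra_ext _ _ fun _ => rfl) h

/-- Transport of base change along semilinear bijections. -/
theorem SemiBC.transfer {φ : A →+* B} {f : M →+ N} (h : SemiBC φ f) {φ' : A' →+* B'}
    {f' : M' →+ N'} (a : A ≃+* A') (b : B ≃+* B') (em : M ≃+ M') (en : N ≃+ N')
    (hφ : ∀ x, φ' (a x) = b (φ x)) (hem : ∀ (x : A) m, em (x • m) = a x • em m)
    (hen : ∀ (y : B) n, en (y • n) = b y • en n) (hf : ∀ m, f' (em m) = en (f m)) :
    SemiBC φ' f' := by
  let : Algebra A B := φ.toAlgebra
  let : Algebra A' B' := φ'.toAlgebra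
  obtain ⟨e, he⟩ := h
  have hφ' : ∀ x, φ (a.symm x) = b.symm (φ' x) := fun x => by
    apply b.injective
    rw [← hφ, a.apply_symm_apply, b.apply_symm_apply]
  have hem' : ∀ (x : A') m, em.symm (x • m) = a.symm x • em.symm m := fun x m => by
    apply em.injective
    rw [hem, em.apply_symm_apply, em.apply_symm_apply, a.apply_symm_apply]
  let T : B ⊗[A] M →+ B' ⊗[A'] M' :=
    TensorProduct.liftAddHom
      (AddMonoidHom.mk' (fun x => AddMonoidHom.mk' (fun m => b x ⊗ₜ[A'] em m) fun m m' => by
        rw [map_add, TensorProduct.tmul_add]) fun x x' => AddMonoidHom.ext fun m => by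
        simp [TensorProduct.add_tmul])
      fun r x m => by
        change b (r • x) ⊗ₜ[A'] em m = b x ⊗ₜ[A'] em (r • m)
        rw [hem, TensorProduct.tmul_smul, TensorProduct.smul_tmul', Algebra.smul_def,
          Algebra.smul_def, map_mul]
        congr 2
        exact (hφ r).symm
  let T' : B' ⊗[A'] M' →+ B ⊗[A] M :=
    TensorProduct.liftAddHom
      (AddMonoidHom.mk' (fun x => AddMonoidHom.mk' (fun m => b.symm x ⊗ₜ[A] em.symm m) fun m m' => by
        rw [map_add, TensorProduct.tmul_add]) fun x x' => AddMonoidHom.ext fun m => by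
        simp [TensorProduct.add_tmul])
      fun r x m => by
        change b.symm (r • x) ⊗ₜ[A] em.symm m = b.symm x ⊗ₜ[A] em.symm (r • m)
        rw [hem', TensorProduct.tmul_smul, TensorProduct.smul_tmul', Algebra.smul_def,
          Algebra.smul_def, map_mul]
        congr 2
        exact (hφ' r).symm
  have hTT' : ∀ x, T (T' x) = x := fun x => by
    induction x using TensorProduct.induction_on with
    | zero => simp
    | tmul x m => simp [T, T']
    | add x y hx hy => rw [map_add, map_add, hx, hy]
  have hT'T : ∀ x, T' (T x) = x := fun x => by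
    induction x using TensorProduct.induction_on with
    | zero => simp
    | tmul x m => simp [T, T']
    | add x y hx hy => rw [map_add, map_add, hx, hy]
  have hsmul : ∀ (y : B') x, T' (y • x) = b.symm y • T' x := fun y x => by
    induction x using TensorProduct.induction_on with
    | zero => simp
    | tmul x m =>
      rw [TensorProduct.smul_tmul']
      simp only [T', TensorProduct.liftAddHom_tmul, AddMonoidHom.mk'_apply, smul_eq_mul, map_mul]
      rw [TensorProduct.smul_tmul', smul_eq_mul]
    | add x y hx hy => simp only [smul_add, map_add, hx, hy]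
  refine ⟨{ toFun := fun x => en (e (T' x))
            invFun := fun n => T (e.symm (en.symm n))
            map_add' := fun x y => by simp
            map_smul' := fun y x => by
              rw [hsmul, _root_.map_smul, hen, b.apply_symm_apply]; rfl
            left_inv := fun x => by simp [hTT']
            right_inv := fun n => by simp [hT'T] }, fun m => ?_⟩
  change en (e (T' (1 ⊗ₜ m))) = f' m
  simp only [T', TensorProduct.liftAddHom_tmul, AddMonoidHom.mk'_apply, map_one]
  rw [he, ← hf, em.apply_symm_apply]

end Fermat.Agent.RelJac.Sheaf
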