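import Mathlib.AlgebraicGeometry.Modules.Tilde
import Fermat.Agent.RelJac.SheafSect
import Fermat.Agent.RelJac.Bridge.SemiBC

/-!
The map from sections of a module to sections of its inverse image.
-/

noncomputable section

universe u

open CategoryTheory AlgebraicGeometry TopologicalSpace

namespace Fermat.Agent.RelJac.Sheaf

variable {X X' X'' : Scheme.{u}} {M N : X.Modules}

/-- The adjunction unit on sections. -/
def unitSec (g : X' ⟶ X) (M : X.Modules) (W : X.Opens) :
    Γ(M, W) →+ Γ((Scheme.Modules.pullback g).obj M, g ⁻¹ᵁ W) :=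
  (((Scheme.Modules.pullbackPushforwardAdjunction g).unit.app M).app W).hom

/-- The map from sections of `M` to sections of its inverse image. -/
def sig (g : X' ⟶ X) (M : X.Modules) {W : X.Opens} {W' : X'.Opens} (h : W' ≤ g ⁻¹ᵁ W) :
    Γ(M, W) →+ Γ((Scheme.Modules.pullback g).obj M, W') :=
  (((Scheme.Modules.pullback g).obj M).presheaf.map (homOfLE h).op).hom.comp (unitSec g M W)

/-- Pullback of sections is the unit followed by restriction. -/
theorem sig_apply (g : X' ⟶ X) (M : X.Modules) {W : X.Opens} {W' : X'.Opens} (h : W' ≤ g ⁻¹ᵁ W)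
    (s : Γ(M, W)) :
    sig g M h s = res _ h (unitSec g M W s) :=
  rfl

theorem unitSec_smul (g : X' ⟶ X) (M : X.Modules) (W : X.Opens) (r : Γ(X, W)) (s : Γ(M, W)) :
    unitSec g M W (r • s) = g.app W r • unitSec g M W s :=
  ((Scheme.Modules.pullbackPushforwardAdjunction g).unit.app M).app_smul r s

/-- Restricting a pulled back section is pulling back to the smaller subset. -/
theorem res_sig (g : X' ⟶ X) (M : X.Modules) {W : X.Opens} {W' W'' : X'.Opens}
    (h : W' ≤ g ⁻¹ᵁ W) (h' : W'' ≤ W') (s : Γ(M, W)) :
    res _ h' (sig g M h s) = sig g M (h'.trans h) s := by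
  rw [sig_apply, sig_apply, res_res]

/-- Pullback of sections does not depend on the open subset the section is restricted to. -/
theorem sig_res (g : X' ⟶ X) (M : X.Modules) {V W : X.Opens} {W' : X'.Opens} (hVW : V ≤ W)
    (h : W' ≤ g ⁻¹ᵁ V) (s : Γ(M, W)) :
    sig g M h (res M hVW s) = sig g M (h.trans (g.preimage_mono hVW)) s := by
  rw [sig_apply, sig_apply]
  have := congr($(((Scheme.Modules.pullbackPushforwardAdjunction g).unit.app M).val.naturality
    (homOfLE hVW).op).hom s)
  refine (congr_arg (res _ h) this).trans ?_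
  exact res_res _ h (g.preimage_mono hVW) _

/-- Pullback of sections is semilinear. -/
theorem sig_smul (g : X' ⟶ X) (M : X.Modules) {W : X.Opens} {W' : X'.Opens} (h : W' ≤ g ⁻¹ᵁ W)
    (r : Γ(X, W)) (s : Γ(M, W)) :
    sig g M h (r • s) = g.appLE W W' h r • sig g M h s := by
  rw [sig_apply, sig_apply, unitSec_smul, res_smul]
  rfl

/-- Pullback of sections is natural in the module. -/
theorem sig_natural (g : X' ⟶ X) (φ : M ⟶ N) {W : X.Opens} {W' : X'.Opens} (h : W' ≤ g ⁻¹ᵁ W)
    (s : Γ(M, W)) :
    ((Scheme.Modules.pullback g).map φ).app W' (sig g M h s) = sig g N h (φ.app W s) := by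
  rw [sig_apply, sig_apply]
  refine (congr($(((Scheme.Modules.pullback g).map φ).val.naturality (homOfLE h).op).hom
    (((Scheme.Modules.pullbackPushforwardAdjunction g).unit.app M).app W s))).trans ?_
  exact congr_arg (res _ h)
    congr(($((Scheme.Modules.pullbackPushforwardAdjunction g).unit.naturality φ).app W) s).symm

/-- Pullback of sections respects equality of morphisms. -/
theorem sig_congr {g g' : X' ⟶ X} (e : g = g') (M : X.Modules) {W : X.Opens} {W' : X'.Opens}
    (h : W' ≤ g ⁻¹ᵁ W) (s : Γ(M, W)) :
    ((Scheme.Modules.pullbackCongr e).hom.app M).app W' (sig g M h s) =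
      sig g' M (e ▸ h) s := by
  subst e
  simp [Scheme.Modules.pullbackCongr]

/-- Pullback of sections respects composition. -/
theorem sig_comp (f : X'' ⟶ X') (g : X' ⟶ X) (M : X.Modules) {W : X.Opens} {W' : X'.Opens}
    {W'' : X''.Opens} (h : W' ≤ g ⁻¹ᵁ W) (h' : W'' ≤ f ⁻¹ᵁ W') (s : Γ(M, W)) :
    ((Scheme.Modules.pullbackComp f g).hom.app M).app W'' (sig f _ h' (sig g M h s)) =
      sig (f ≫ g) M (h'.trans (f.preimage_mono h)) s := by
  have key := unit_conjugateEquiv
    ((Scheme.Modules.pullbackPushforwardAdjunction g).comp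
      (Scheme.Modules.pullbackPushforwardAdjunction f))
    (Scheme.Modules.pullbackPushforwardAdjunction (f ≫ g)) (Scheme.Modules.pullbackComp f g).inv M
  rw [Scheme.Modules.conjugateEquiv_pullbackComp_inv, Adjunction.comp_unit_app] at key
  have key' := congr(($(key).app W) s)
  rw [sig_apply g M h s, sig_res f _ h h']
  have hinj : Function.Injective
      (((Scheme.Modules.pullbackComp f g).inv.app M).app W'') :=
    ConcreteCategory.injective_of_mono_of_preservesPullback _
  apply hinj
  rw [← ConcreteCategory.comp_apply, ← Scheme.Modules.Hom.comp_app, Iso.hom_inv_id_app]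
  refine (congr_arg (res _ (h'.trans (f.preimage_mono h))) key').trans ?_
  exact (congr($(((Scheme.Modules.pullbackComp f g).inv.app M).val.naturality
    (homOfLE (h'.trans (f.preimage_mono h))).op).hom
    (((Scheme.Modules.pullbackPushforwardAdjunction (f ≫ g)).unit.app M).app W s))).symm

/-- Pullback of sections along the identity is restriction. -/
theorem sig_id (M : X.Modules) {W W' : X.Opens} (h : W' ≤ (𝟙 X) ⁻¹ᵁ W) (s : Γ(M, W)) :
    ((Scheme.Modules.pullbackId X).hom.app M).app W' (sig (𝟙 X) M h s) = res M h s := by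
  have key := unit_conjugateEquiv Adjunction.id (Scheme.Modules.pullbackPushforwardAdjunction (𝟙 X))
    (Scheme.Modules.pullbackId X).hom M
  rw [Scheme.Modules.conjugateEquiv_pullbackId_hom] at key
  have key' := congr(($(key).app W) s)
  refine (congr($(((Scheme.Modules.pullbackId X).hom.app M).val.naturality (homOfLE h).op).hom
    (((Scheme.Modules.pullbackPushforwardAdjunction (𝟙 X)).unit.app M).app W s))).trans ?_
  exact congr_arg (res M h) key'.symm

/-- Pullback of sections along an open immersion is bijective inside its image. -/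
theorem sig_bijective (j : X' ⟶ X) [IsOpenImmersion j] (M : X.Modules) {W : X.Opens}
    (hW : W ≤ j.opensRange) {W' : X'.Opens} (h : W' = j ⁻¹ᵁ W) :
    Function.Bijective (sig j M h.le) := by
  subst h
  have key := Adjunction.unit_leftAdjointUniq_hom_app (Scheme.Modules.restrictAdjunction j)
    (Scheme.Modules.pullbackPushforwardAdjunction j) M
  have heq : j ''ᵁ (j ⁻¹ᵁ W) = W := by
    rw [Scheme.Hom.image_preimage_eq_opensRange_inf, inf_eq_right.2 hW]
  have hfun : (sig j M (le_refl (j ⁻¹ᵁ W)) : Γ(M, W) → _) =
      (((Scheme.Modules.restrictFunctorIsoPullback j).hom.app M).app (j ⁻¹ᵁ W)) ∘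
        (res M (heq.le)) := by
    funext s
    rw [sig_apply, res_self]
    exact congr(($(key).app W) s).symm
  rw [hfun]
  refine Function.Bijective.comp (ConcreteCategory.bijective_of_isIso _) ?_
  have : IsIso (M.presheaf.map (homOfLE heq.le).op) := by
    have : IsIso (homOfLE heq.le).op := by
      rw [show homOfLE heq.le = eqToHom heq from rfl]
      infer_instance
    infer_instance
  exact ConcreteCategory.bijective_of_isIso (M.presheaf.map (homOfLE heq.le).op)

end Fermat.Agent.RelJac.Sheaf
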